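import Mathlib

/-!
# FLT-SMALL (S10/S11): basic facts on the ring of integers of a prime cyclotomic field

* `exists_int_sub_pow_dvd`: every `p`-th power in `𝓞 K` is congruent to a rational integer
  modulo `p`.
* `exists_sq_dvd`: pigeonhole step of Kummer's descent: if `π = ζ - 1` divides `x + μ y` for all
  `p`-th roots of unity `μ` and `π ∤ y`, then `π ^ 2` divides one of them.
-/

open NumberField

namespace Fermat.Agent.S10

theorem exists_int_sub_pow_dvd {p : ℕ} [Fact p.Prime] {K : Type*} [Field K] [NumberField K]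
    [IsCyclotomicExtension {p} ℚ K] (x : 𝓞 K) : ∃ n : ℤ, (p : 𝓞 K) ∣ x ^ p - n := by
  have hp : p.Prime := Fact.out
  have hζ : IsPrimitiveRoot (IsCyclotomicExtension.zeta p ℚ K) p :=
    IsCyclotomicExtension.zeta_spec p ℚ K
  have hadj : Algebra.adjoin ℤ {hζ.toInteger} = ⊤ := by
    have := hζ.integralPowerBasis.adjoin_gen_eq_top
    rwa [hζ.integralPowerBasis_gen] at this
  have hx : x ∈ Algebra.adjoin ℤ {hζ.toInteger} := hadj ▸ Algebra.mem_top
  induction hx using Algebra.adjoin_induction with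
  | mem y hy =>
    rw [Set.mem_singleton_iff] at hy
    subst hy
    refine ⟨1, ?_⟩
    rw [hζ.toInteger_isPrimitiveRoot.pow_eq_one]
    simp
  | algebraMap r => exact ⟨r ^ p, by simp⟩
  | add y z _ _ hy hz =>
    obtain ⟨n, hn⟩ := hy
    obtain ⟨m, hm⟩ := hz
    obtain ⟨r, hr⟩ := exists_add_pow_prime_eq hp y z
    refine ⟨n + m, ?_⟩
    have key : (y + z) ^ p - ((n + m : ℤ) : 𝓞 K) =
        (y ^ p - n) + (z ^ p - m) + p * (y * z * r) := by
      rw [hr]; push_cast; ring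
    rw [key]
    exact dvd_add (dvd_add hn hm) (dvd_mul_right _ _)
  | mul y z _ _ hy hz =>
    obtain ⟨n, hn⟩ := hy
    obtain ⟨m, hm⟩ := hz
    refine ⟨n * m, ?_⟩
    have key : (y * z) ^ p - ((n * m : ℤ) : 𝓞 K) = (y ^ p - n) * z ^ p + n * (z ^ p - m) := by
      push_cast; ring
    rw [key]
    exact dvd_add (Dvd.dvd.mul_right hn _) (Dvd.dvd.mul_left hm _)

theorem exists_sq_dvd {p : ℕ} [Fact p.Prime] {K : Type*} [Field K] [NumberField K]
    [IsCyclotomicExtension {p} ℚ K] {ζ : K} (hζ : IsPrimitiveRoot ζ p) (x y : 𝓞 K)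
    (hy : ¬ (hζ.toInteger - 1) ∣ y)
    (h : ∀ μ ∈ Polynomial.nthRootsFinset p (1 : 𝓞 K), (hζ.toInteger - 1) ∣ x + μ * y) :
    ∃ μ ∈ Polynomial.nthRootsFinset p (1 : 𝓞 K), (hζ.toInteger - 1) ^ 2 ∣ x + μ * y := by
  have hp : p.Prime := Fact.out
  have hπprime : Prime (hζ.toInteger - 1) := hζ.zeta_sub_one_prime'
  have hπ0 : hζ.toInteger - 1 ≠ 0 := hπprime.ne_zero
  have hcard : Nat.card (𝓞 K ⧸ Ideal.span {hζ.toInteger - 1}) = p := by
    have hK' : IsCyclotomicExtension {p ^ (0 + 1)} ℚ K := by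
      simpa using ‹IsCyclotomicExtension {p} ℚ K›
    have hζ' : IsPrimitiveRoot ζ (p ^ (0 + 1)) := by simpa using hζ
    have := IsCyclotomicExtension.Rat.absNorm_span_zeta_sub_one p 0 hζ'
    rw [Ideal.absNorm_apply, Submodule.cardQuot_apply] at this
    exact this
  choose! t ht using h
  let φ : (Polynomial.nthRootsFinset p (1 : 𝓞 K)) → 𝓞 K ⧸ Ideal.span {hζ.toInteger - 1} :=
    fun μ => Ideal.Quotient.mk _ (t μ)
  have hinj : Function.Injective φ := by
    intro μ ν hμν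
    by_contra hne
    have hne' : (μ : 𝓞 K) ≠ ν := fun h => hne (Subtype.ext h)
    have h1 : (hζ.toInteger - 1) ∣ t μ - t ν := by
      rw [← Ideal.mem_span_singleton, ← Ideal.Quotient.eq]
      exact hμν
    obtain ⟨u, hu⟩ :=
      hζ.toInteger_isPrimitiveRoot.nthRootsFinset_pairwise_associated_sub_one_sub_of_prime hp
        μ.2 ν.2 hne'
    have h2 : (hζ.toInteger - 1) * (t μ - t ν) = (hζ.toInteger - 1) * (u * y) := by
      rw [mul_sub, ← ht μ μ.2, ← ht ν ν.2, ← mul_assoc, hu]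
      ring
    have h3 : t μ - t ν = u * y := mul_left_cancel₀ hπ0 h2
    rw [h3] at h1
    exact hy ((Units.dvd_mul_left).mp h1)
  have hcard2 : Nat.card (Polynomial.nthRootsFinset p (1 : 𝓞 K)) = p := by
    rw [Nat.card_eq_fintype_card, Fintype.card_coe,
      hζ.toInteger_isPrimitiveRoot.card_nthRootsFinset]
  have hfin : Finite (𝓞 K ⧸ Ideal.span {hζ.toInteger - 1}) :=
    Nat.finite_of_card_ne_zero (by rw [hcard]; exact hp.ne_zero)
  have hsurj : Function.Surjective φ :=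
    (Function.Injective.bijective_of_nat_card_le hinj (by rw [hcard, hcard2])).2
  obtain ⟨μ, hμ⟩ := hsurj 0
  refine ⟨μ, μ.2, ?_⟩
  have hdvd : (hζ.toInteger - 1) ∣ t μ := by
    rw [← Ideal.mem_span_singleton, ← Ideal.Quotient.eq_zero_iff_mem]
    exact hμ
  obtain ⟨s, hs⟩ := hdvd
  rw [ht μ μ.2, hs]
  exact ⟨s, by ring⟩

end Fermat.Agent.S10
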