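import Mathlib
import Fermat.Agent.S10.CycloBasic

/-!
# Kummer's descent (second case of FLT for a prime `p` with `𝓞 K` a PID), core step.

Piece (D2) of the FLT-SMALL project (S10/S11).  Main statement: `Fermat.Agent.S10.caseII_descent`.
-/

set_option linter.unusedSectionVars false

open NumberField Polynomial

namespace Fermat.Agent.S10

section DescentCore

variable {p : ℕ} [Fact p.Prime] {K : Type*} [Field K] [NumberField K]
  [IsCyclotomicExtension {p} ℚ K] {ζ : K} (hζ : IsPrimitiveRoot ζ p)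

/-- distinct `p`-th roots of unity differ by an associate of `ζ - 1`. -/
theorem descent_assoc_sub {μ ν : 𝓞 K} (hμ : μ ∈ nthRootsFinset p (1 : 𝓞 K))
    (hν : ν ∈ nthRootsFinset p (1 : 𝓞 K)) (hne : μ ≠ ν) :
    Associated (hζ.toInteger - 1) (μ - ν) :=
  hζ.toInteger_isPrimitiveRoot.nthRootsFinset_pairwise_associated_sub_one_sub_of_prime
    (Fact.out : p.Prime) hμ hν hne

/-- if `ζ - 1` divides one `x + μ₀ y` it divides all of them. -/
theorem descent_dvd_all {x y μ₀ : 𝓞 K} (hμ₀ : μ₀ ∈ nthRootsFinset p (1 : 𝓞 K))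
    (h : (hζ.toInteger - 1) ∣ x + μ₀ * y) {μ : 𝓞 K} (hμ : μ ∈ nthRootsFinset p (1 : 𝓞 K)) :
    (hζ.toInteger - 1) ∣ x + μ * y := by
  have h1 : (hζ.toInteger - 1) ∣ μ - μ₀ :=
    hζ.toInteger_isPrimitiveRoot.sub_one_dvd_sub (Fact.out : p.Prime) hμ hμ₀
  have : x + μ * y = (x + μ₀ * y) + (μ - μ₀) * y := by ring
  rw [this]
  exact dvd_add h (Dvd.dvd.mul_right h1 y)

/-- two different roots cannot both give divisibility by `(ζ - 1)^2`. -/
theorem descent_sq_unique {x y μ ν : 𝓞 K} (hμ : μ ∈ nthRootsFinset p (1 : 𝓞 K))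
    (hν : ν ∈ nthRootsFinset p (1 : 𝓞 K)) (hne : μ ≠ ν)
    (h1 : (hζ.toInteger - 1) ^ 2 ∣ x + μ * y) (h2 : (hζ.toInteger - 1) ^ 2 ∣ x + ν * y) :
    (hζ.toInteger - 1) ∣ y := by
  have hπ : Prime (hζ.toInteger - 1) := hζ.zeta_sub_one_prime'
  obtain ⟨u, hu⟩ := descent_assoc_sub hζ hμ hν hne
  have h3 : (hζ.toInteger - 1) ^ 2 ∣ (μ - ν) * y := by
    have : (μ - ν) * y = (x + μ * y) - (x + ν * y) := by ring
    rw [this]
    exact dvd_sub h1 h2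
  rw [← hu, sq, mul_assoc] at h3
  have h4 : (hζ.toInteger - 1) ∣ (u : 𝓞 K) * y := (mul_dvd_mul_iff_left hπ.ne_zero).mp h3
  exact (hπ.dvd_or_dvd h4).resolve_left
    (fun h => hπ.not_isUnit (isUnit_of_dvd_unit h u.isUnit))

/-- a prime dividing `unit * z ^ n` divides `z`. -/
theorem descent_dvd_of_dvd_unit_mul_pow {R : Type*} [CommRing R] {q z : R} (hq : Prime q)
    (ε : Rˣ) {n : ℕ} (h : q ∣ (ε : R) * z ^ n) : q ∣ z :=
  ((hq.dvd_or_dvd h).resolve_left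
    (fun h' => hq.not_isUnit (isUnit_of_dvd_unit h' ε.isUnit))) |> hq.dvd_of_dvd_pow

/-- In a Bezout domain, pairwise coprime elements whose product is associated to a `k`-th power
are each associated to a `k`-th power. -/
theorem descent_assoc_pow_of_prod {R : Type*} [CommRing R] [IsDomain R] [IsBezout R]
    {ι : Type*} [DecidableEq ι] (S : Finset ι) (f : ι → R)
    (hf : ∀ i ∈ S, ∀ j ∈ S, i ≠ j → IsCoprime (f i) (f j))
    {c : R} {k : ℕ} (h : Associated (c ^ k) (∏ i ∈ S, f i)) {i : ι} (hi : i ∈ S) :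
    ∃ d : R, Associated (d ^ k) (f i) := by
  rw [← Finset.mul_prod_erase S f hi] at h
  exact exists_associated_pow_of_associated_pow_mul
    (IsCoprime.prod_right fun j hj =>
      hf i hi j (Finset.mem_of_mem_erase hj) (Finset.ne_of_mem_erase hj).symm) h

/-- One step of Kummer's descent. -/
theorem descent_step (hp5 : 5 ≤ p) (hpid : IsPrincipalIdealRing (𝓞 K))
    (hkl : ∀ u : (𝓞 K)ˣ, ∀ n : ℤ, (p : 𝓞 K) ∣ (u : 𝓞 K) - n → ∃ v : (𝓞 K)ˣ, u = v ^ p)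
    (m : ℕ) (hm : 1 ≤ m) (x y z : 𝓞 K) (ε : (𝓞 K)ˣ)
    (hy : ¬ (hζ.toInteger - 1) ∣ y)
    (hz : ¬ (hζ.toInteger - 1) ∣ z) (hxy : IsCoprime x y)
    (h : x ^ p + y ^ p = ε * (hζ.toInteger - 1) ^ (p * m) * z ^ p) :
    2 ≤ m ∧ ∃ (x' y' z' : 𝓞 K) (ε' : (𝓞 K)ˣ), ¬ (hζ.toInteger - 1) ∣ x' ∧
      ¬ (hζ.toInteger - 1) ∣ y' ∧ ¬ (hζ.toInteger - 1) ∣ z' ∧ IsCoprime x' y' ∧
      x' ^ p + y' ^ p = ε' * (hζ.toInteger - 1) ^ (p * (m - 1)) * z' ^ p := by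
  classical
  have hp : p.Prime := Fact.out
  have hp0 : 0 < p := hp.pos
  have hη : IsPrimitiveRoot hζ.toInteger p := hζ.toInteger_isPrimitiveRoot
  have hπ : Prime (hζ.toInteger - 1) := hζ.zeta_sub_one_prime'
  have hassocp : Associated ((hζ.toInteger - 1) ^ (p - 1)) (p : 𝓞 K) :=
    IsCyclotomicExtension.Rat.associated_zeta_sub_one_pow_prime p hζ
  generalize hηdef : hζ.toInteger = η at *
  generalize hπdef : η - 1 = π at *
  set S := nthRootsFinset p (1 : 𝓞 K) with hS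
  have hodd : Odd p := hp.odd_of_ne_two (by omega)
  have hprod : x ^ p + y ^ p = ∏ μ ∈ S, (x + μ * y) := hη.pow_add_pow_eq_prod_add_mul x y hodd
  -- `π` divides some factor, hence all factors
  have hπdvd : π ∣ ∏ μ ∈ S, (x + μ * y) := by
    rw [← hprod, h]
    exact Dvd.dvd.mul_right (Dvd.dvd.mul_left (dvd_pow_self π (by positivity)) _) _
  obtain ⟨μ₀, hμ₀, hμ₀dvd⟩ := hπ.exists_mem_finset_dvd hπdvd
  have hall : ∀ μ ∈ S, π ∣ x + μ * y := by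
    intro μ hμ
    have := descent_dvd_all hζ (x := x) (y := y) hμ₀ (by rw [hηdef, hπdef]; exact hμ₀dvd) hμ
    rwa [hηdef, hπdef] at this
  obtain ⟨μ₁, hμ₁, hμ₁sq⟩ : ∃ μ ∈ S, π ^ 2 ∣ x + μ * y := by
    have := exists_sq_dvd hζ x y (by rw [hηdef, hπdef]; exact hy)
      (by rw [hηdef, hπdef]; exact hall)
    rwa [hηdef, hπdef] at this
  have hall' : ∀ μ ∈ S, ∃ c, x + μ * y = π * c := hall
  choose! t ht using hall'
  have hcard : S.card = p := hη.card_nthRootsFinset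
  have hprod2 : π ^ p * ∏ μ ∈ S, t μ = ε * π ^ (p * m) * z ^ p := by
    rw [← h, hprod]
    conv_lhs => rw [← hcard]
    rw [← Finset.prod_const, ← Finset.prod_mul_distrib]
    exact Finset.prod_congr rfl fun μ hμ => (ht μ hμ).symm
  have hprod3 : ∏ μ ∈ S, t μ = ε * π ^ (p * (m - 1)) * z ^ p := by
    have hpm : p * m = p + p * (m - 1) := by
      obtain ⟨k, rfl⟩ := Nat.exists_eq_add_of_le hm
      simp [Nat.mul_add]
    rw [hpm, pow_add] at hprod2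
    have : π ^ p * ∏ μ ∈ S, t μ = π ^ p * (ε * π ^ (p * (m - 1)) * z ^ p) := by
      rw [hprod2]; ring
    exact mul_left_cancel₀ (pow_ne_zero p hπ.ne_zero) this
  -- `π ∣ t μ₁`, and `π ∤ t μ` for the other roots
  have hπt1 : π ∣ t μ₁ := by
    have := ht μ₁ hμ₁
    rw [this, sq] at hμ₁sq
    exact (mul_dvd_mul_iff_left hπ.ne_zero).mp hμ₁sq
  have hπt : ∀ μ ∈ S, μ ≠ μ₁ → ¬ π ∣ t μ := by
    intro μ hμ hne hdvd
    apply hy
    have := descent_sq_unique hζ (x := x) (y := y) hμ hμ₁ hne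
      (by rw [hηdef, hπdef, ht μ hμ, sq]; exact mul_dvd_mul_left π hdvd)
      (by rw [hηdef, hπdef]; exact hμ₁sq)
    rwa [hηdef, hπdef] at this
  -- the `t μ` are pairwise coprime
  have hcop : ∀ μ ∈ S, ∀ ν ∈ S, μ ≠ ν → IsCoprime (t μ) (t ν) := by
    intro μ hμ ν hν hne
    obtain ⟨r, s, hrs⟩ := hxy
    obtain ⟨u, hu⟩ : Associated π (μ - ν) := by
      have := descent_assoc_sub hζ hμ hν hne
      rwa [hηdef, hπdef] at this
    refine ⟨↑u⁻¹ * (s - r * ν), ↑u⁻¹ * (r * μ - s), ?_⟩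
    have key : π * ((s - r * ν) * t μ + (r * μ - s) * t ν) = π * u := by
      rw [hu]
      have e1 := ht μ hμ
      have e2 := ht ν hν
      calc π * ((s - r * ν) * t μ + (r * μ - s) * t ν)
          = (s - r * ν) * (π * t μ) + (r * μ - s) * (π * t ν) := by ring
        _ = (s - r * ν) * (x + μ * y) + (r * μ - s) * (x + ν * y) := by rw [← e1, ← e2]
        _ = (μ - ν) * (r * x + s * y) := by ring
        _ = μ - ν := by rw [hrs, mul_one]
    have key2 := mul_left_cancel₀ hπ.ne_zero key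
    calc ↑u⁻¹ * (s - r * ν) * t μ + ↑u⁻¹ * (r * μ - s) * t ν
        = ↑u⁻¹ * ((s - r * ν) * t μ + (r * μ - s) * t ν) := by ring
      _ = ↑u⁻¹ * u := by rw [key2]
      _ = 1 := by simp
  -- `m ≥ 2`
  have hm2 : 2 ≤ m := by
    by_contra hlt
    have hm1 : m = 1 := by omega
    subst hm1
    have h1 : π ∣ ∏ μ ∈ S, t μ := dvd_trans hπt1 (Finset.dvd_prod_of_mem t hμ₁)
    rw [hprod3] at h1
    simp only [Nat.sub_self, Nat.mul_zero, pow_zero, mul_one] at h1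
    exact hz (descent_dvd_of_dvd_unit_mul_pow hπ ε h1)
  -- split off the special factor
  set Q := ∏ μ ∈ S.erase μ₁, t μ with hQ
  have hQprod : t μ₁ * Q = ε * π ^ (p * (m - 1)) * z ^ p := by
    rw [← hprod3, hQ, Finset.mul_prod_erase S t hμ₁]
  have hπQ : ¬ π ∣ Q := by
    intro hdvd
    obtain ⟨μ, hμ, hμd⟩ := hπ.exists_mem_finset_dvd hdvd
    exact hπt μ (Finset.mem_of_mem_erase hμ) (Finset.ne_of_mem_erase hμ) hμd
  have hpow_dvd : π ^ (p * (m - 1)) ∣ t μ₁ := by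
    apply hπ.pow_dvd_of_dvd_mul_right _ hπQ
    rw [hQprod]
    exact Dvd.dvd.mul_right (Dvd.intro_left _ rfl) _
  obtain ⟨a₀, ha₀⟩ := hpow_dvd
  have ha₀Q : a₀ * Q = ε * z ^ p := by
    have : π ^ (p * (m - 1)) * (a₀ * Q) = π ^ (p * (m - 1)) * (ε * z ^ p) := by
      rw [← mul_assoc, ← ha₀, hQprod]; ring
    exact mul_left_cancel₀ (pow_ne_zero _ hπ.ne_zero) this
  have hπa₀ : ¬ π ∣ a₀ := by
    intro hdvd
    have : π ∣ (ε : 𝓞 K) * z ^ p := by rw [← ha₀Q]; exact Dvd.dvd.mul_right hdvd Q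
    exact hz (descent_dvd_of_dvd_unit_mul_pow hπ ε this)
  -- modified family: replace `t μ₁` by `a₀`
  set t' : 𝓞 K → 𝓞 K := Function.update t μ₁ a₀ with ht'
  have ht'1 : t' μ₁ = a₀ := Function.update_self ..
  have ht'ne : ∀ μ, μ ≠ μ₁ → t' μ = t μ := fun μ hne => Function.update_of_ne hne ..
  have ht'dvd : ∀ μ, t' μ ∣ t μ := by
    intro μ
    by_cases hμ : μ = μ₁
    · subst hμ; rw [ht'1, ha₀]; exact Dvd.intro_left _ rfl
    · rw [ht'ne μ hμ]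
  have hcop' : ∀ μ ∈ S, ∀ ν ∈ S, μ ≠ ν → IsCoprime (t' μ) (t' ν) := fun μ hμ ν hν hne =>
    ((hcop μ hμ ν hν hne).of_isCoprime_of_dvd_left (ht'dvd μ)).of_isCoprime_of_dvd_right
      (ht'dvd ν)
  have hprod' : ∏ μ ∈ S, t' μ = ε * z ^ p := by
    rw [← Finset.mul_prod_erase S t' hμ₁, ht'1, ← ha₀Q, hQ]
    congr 1
    exact Finset.prod_congr rfl fun μ hμ => ht'ne μ (Finset.ne_of_mem_erase hμ)
  have hassoc : Associated (z ^ p) (∏ μ ∈ S, t' μ) := by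
    rw [hprod']; exact ⟨ε, by ring⟩
  -- the three roots used in the descent
  have hμ₁p : μ₁ ^ p = 1 := (mem_nthRootsFinset hp0 1).mp hμ₁
  have hηp : η ^ p = 1 := hη.pow_eq_one
  have hμ₁0 : μ₁ ≠ 0 := by
    rintro rfl
    rw [zero_pow hp.ne_zero] at hμ₁p
    exact zero_ne_one hμ₁p
  have hν₁ : μ₁ * η ∈ S := (mem_nthRootsFinset hp0 1).mpr (by rw [mul_pow, hμ₁p, hηp, mul_one])
  have hν₂ : μ₁ * η ^ (p - 1) ∈ S := (mem_nthRootsFinset hp0 1).mpr (by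
    rw [mul_pow, hμ₁p, ← pow_mul, mul_comm (p - 1) p, pow_mul, hηp, one_pow, mul_one])
  have hη1 : η ≠ 1 := hη.ne_one hp.one_lt
  have hηinv : η * η ^ (p - 1) = 1 := by
    rw [← pow_succ', Nat.sub_add_cancel hp.one_le, hηp]
  have hη2 : η ^ (p - 1) ≠ 1 := by
    intro h'
    rw [h', mul_one] at hηinv
    exact hη1 hηinv
  have hη3 : η ≠ η ^ (p - 1) := by
    intro h'
    have h2 : η ^ 2 = 1 := by
      rw [sq]
      calc η * η = η * η ^ (p - 1) := by rw [← h']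
        _ = 1 := hηinv
    have hd : p ∣ 2 := (hη.pow_eq_one_iff_dvd 2).mp h2
    have := Nat.le_of_dvd (by norm_num) hd
    omega
  have hne1 : μ₁ * η ≠ μ₁ := fun h' => hη1 (mul_left_cancel₀ hμ₁0 (by rw [h', mul_one]))
  have hne2 : μ₁ * η ^ (p - 1) ≠ μ₁ := fun h' =>
    hη2 (mul_left_cancel₀ hμ₁0 (by rw [h', mul_one]))
  have hne12 : μ₁ * η ≠ μ₁ * η ^ (p - 1) := fun h' => hη3 (mul_left_cancel₀ hμ₁0 h')
  -- extract `p`-th powers
  have : IsPrincipalIdealRing (𝓞 K) := hpid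
  obtain ⟨d₀, hd₀⟩ := descent_assoc_pow_of_prod S t' hcop' hassoc hμ₁
  obtain ⟨d₁, hd₁⟩ := descent_assoc_pow_of_prod S t' hcop' hassoc hν₁
  obtain ⟨d₂, hd₂⟩ := descent_assoc_pow_of_prod S t' hcop' hassoc hν₂
  rw [ht'1] at hd₀
  rw [ht'ne _ hne1] at hd₁
  rw [ht'ne _ hne2] at hd₂
  obtain ⟨u₀, hu₀⟩ := hd₀
  obtain ⟨u₁, hu₁⟩ := hd₁
  obtain ⟨u₂, hu₂⟩ := hd₂
  -- the linear relation between three factors
  have hrel : t (μ₁ * η) + η * t (μ₁ * η ^ (p - 1)) = (1 + η) * t μ₁ := by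
    have e0 := ht μ₁ hμ₁
    have e1 := ht _ hν₁
    have e2 := ht _ hν₂
    have : π * (t (μ₁ * η) + η * t (μ₁ * η ^ (p - 1))) = π * ((1 + η) * t μ₁) := by
      calc π * (t (μ₁ * η) + η * t (μ₁ * η ^ (p - 1)))
          = π * t (μ₁ * η) + η * (π * t (μ₁ * η ^ (p - 1))) := by ring
        _ = (x + μ₁ * η * y) + η * (x + μ₁ * η ^ (p - 1) * y) := by rw [← e1, ← e2]
        _ = (1 + η) * x + μ₁ * η * y + μ₁ * (η * η ^ (p - 1)) * y := by ring
        _ = (1 + η) * (x + μ₁ * y) := by rw [hηinv]; ring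
        _ = π * ((1 + η) * t μ₁) := by rw [e0]; ring
    exact mul_left_cancel₀ hπ.ne_zero this
  have hηunit : IsUnit η := hη.isUnit hp.ne_zero
  have h1η : IsUnit (1 + η) := by
    have h2 := hη.geom_sum_isUnit hp.two_le (j := 2)
      ((Nat.coprime_primes Nat.prime_two hp).mpr (by omega))
    simpa [Finset.sum_range_succ] using h2
  set w : (𝓞 K)ˣ := hηunit.unit * u₂ * u₁⁻¹ with hwdef
  set ε' : (𝓞 K)ˣ := h1η.unit * u₀ * u₁⁻¹ with hε'def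
  have hE : d₁ ^ p + (w : 𝓞 K) * d₂ ^ p = (ε' : 𝓞 K) * π ^ (p * (m - 1)) * d₀ ^ p := by
    have h1 : d₁ ^ p * u₁ + η * (d₂ ^ p * u₂) = (1 + η) * (π ^ (p * (m - 1)) * (d₀ ^ p * u₀)) := by
      rw [hu₁, hu₂, hu₀, ← ha₀]; exact hrel
    have hw : (w : 𝓞 K) = η * u₂ * ↑u₁⁻¹ := by simp [hwdef]
    have hε' : (ε' : 𝓞 K) = (1 + η) * u₀ * ↑u₁⁻¹ := by simp [hε'def]
    rw [hw, hε']
    have hinv : (u₁ : 𝓞 K) * ↑u₁⁻¹ = 1 := Units.mul_inv u₁
    linear_combination (↑u₁⁻¹ : 𝓞 K) * h1 - d₁ ^ p * hinv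
  -- Kummer's lemma applies to `w`
  have hpdvd : (p : 𝓞 K) ∣ d₁ ^ p + (w : 𝓞 K) * d₂ ^ p := by
    rw [hE]
    have h1 : (p : 𝓞 K) ∣ π ^ (p * (m - 1)) := by
      refine hassocp.symm.dvd.trans (pow_dvd_pow π ?_)
      have h3 : 1 ≤ m - 1 := by omega
      calc p - 1 ≤ p * 1 := by omega
        _ ≤ p * (m - 1) := Nat.mul_le_mul_left p h3
    exact Dvd.dvd.mul_right (Dvd.dvd.mul_left h1 _) _
  obtain ⟨n₁, hn₁⟩ := exists_int_sub_pow_dvd (p := p) d₁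
  obtain ⟨n₂, hn₂⟩ := exists_int_sub_pow_dvd (p := p) d₂
  have hπd₂ : ¬ π ∣ d₂ := by
    intro hdvd
    apply hπt _ hν₂ hne2
    rw [← hu₂]
    exact Dvd.dvd.mul_right (dvd_pow hdvd hp.ne_zero) _
  have hπp : π ∣ (p : 𝓞 K) :=
    (dvd_pow_self π (by have := hp.two_le; omega : p - 1 ≠ 0)).trans hassocp.dvd
  have hn₂p : ¬ (p : ℤ) ∣ n₂ := by
    intro hdvd
    have h1 : π ∣ (n₂ : 𝓞 K) := by
      have := (IsCyclotomicExtension.Rat.zeta_sub_one_dvd_intCast_iff' p hζ).mpr hdvd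
      rwa [hηdef, hπdef] at this
    have h2 : π ∣ d₂ ^ p := by
      have := dvd_add (hπp.trans hn₂) h1
      simpa using this
    exact hπd₂ (hπ.dvd_of_dvd_pow h2)
  have hcopZ : IsCoprime n₂ (p : ℤ) := by
    rw [Int.isCoprime_iff_nat_coprime, Int.natAbs_natCast, Nat.coprime_comm,
      hp.coprime_iff_not_dvd]
    intro hdvd
    exact hn₂p (Int.natCast_dvd.mpr hdvd)
  obtain ⟨k, l, hkl'⟩ := hcopZ
  have hwdvd : (p : 𝓞 K) ∣ (w : 𝓞 K) - ((-(n₁ * k) : ℤ) : 𝓞 K) := by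
    obtain ⟨c₁, hc₁⟩ := hpdvd
    obtain ⟨c₂, hc₂⟩ := hn₁
    obtain ⟨c₃, hc₃⟩ := hn₂
    have hcast : ((k * n₂ + l * p : ℤ) : 𝓞 K) = 1 := by rw [hkl']; simp
    push_cast at hcast ⊢
    refine ⟨k * (c₁ - c₂ - w * c₃) + l * w, ?_⟩
    linear_combination (k : 𝓞 K) * hc₁ - (k : 𝓞 K) * hc₂ - (k : 𝓞 K) * (w : 𝓞 K) * hc₃
      - (w : 𝓞 K) * hcast
  obtain ⟨v, hv⟩ := hkl w _ hwdvd
  -- the new solution
  refine ⟨hm2, d₁, v * d₂, d₀, ε', ?_, ?_, ?_, ?_, ?_⟩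
  · intro hdvd
    apply hπt _ hν₁ hne1
    rw [← hu₁]
    exact Dvd.dvd.mul_right (dvd_pow hdvd hp.ne_zero) _
  · intro hdvd
    exact hπd₂ ((hπ.dvd_or_dvd hdvd).resolve_left
      fun h' => hπ.not_isUnit (isUnit_of_dvd_unit h' v.isUnit))
  · intro hdvd
    apply hπa₀
    rw [← hu₀]
    exact Dvd.dvd.mul_right (dvd_pow hdvd hp.ne_zero) _
  · have h1 : IsCoprime (t (μ₁ * η)) (t (μ₁ * η ^ (p - 1))) := hcop _ hν₁ _ hν₂ hne12
    rw [← hu₁, ← hu₂] at h1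
    have h2 : IsCoprime (d₁ ^ p) (d₂ ^ p) :=
      (isCoprime_mul_unit_right_left u₁.isUnit _ _).mp
        ((isCoprime_mul_unit_right_right u₂.isUnit _ _).mp h1)
    have h3 : IsCoprime d₁ d₂ := (IsCoprime.pow_iff hp0 hp0).mp h2
    exact (isCoprime_mul_unit_left_right v.isUnit _ _).mpr h3
  · rw [mul_pow, ← Units.val_pow_eq_pow_val, ← hv]
    exact hE

/-- **Kummer's descent** (piece D2 of FLT-SMALL): in the ring of integers of the `p`-th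
cyclotomic field, assumed to be a PID and to satisfy Kummer's lemma, the equation
`x ^ p + y ^ p = ε * (ζ - 1) ^ (p * m) * z ^ p` has no solution with `m ≥ 1`, `x, y` coprime and
`y, z` prime to `ζ - 1`. -/
theorem caseII_descent {p : ℕ} [Fact p.Prime] (hp5 : 5 ≤ p) {K : Type*} [Field K] [NumberField K]
    [IsCyclotomicExtension {p} ℚ K] {ζ : K} (hζ : IsPrimitiveRoot ζ p)
    (hpid : IsPrincipalIdealRing (𝓞 K))
    (hkl : ∀ u : (𝓞 K)ˣ, ∀ n : ℤ, (p : 𝓞 K) ∣ (u : 𝓞 K) - n → ∃ v : (𝓞 K)ˣ, u = v ^ p)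
    (m : ℕ) (hm : 1 ≤ m) (x y z : 𝓞 K) (ε : (𝓞 K)ˣ)
    (hx : ¬ (hζ.toInteger - 1) ∣ x) (hy : ¬ (hζ.toInteger - 1) ∣ y)
    (hz : ¬ (hζ.toInteger - 1) ∣ z) (hxy : IsCoprime x y)
    (h : x ^ p + y ^ p = ε * (hζ.toInteger - 1) ^ (p * m) * z ^ p) : False := by
  induction m generalizing x y z ε with
  | zero => omega
  | succ k ih =>
    obtain ⟨hk2, x', y', z', ε', hx', hy', hz', hxy', h'⟩ :=
      descent_step hζ hp5 hpid hkl (k + 1) hm x y z ε hy hz hxy h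
    exact ih (by omega) x' y' z' ε' hx' hy' hz' hxy' (by simpa using h')

end DescentCore

end Fermat.Agent.S10
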