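import Mathlib
import Fermat.Agent.S10.Descent

open NumberField

namespace Fermat.Agent.S10

/-- Second case of Fermat's Last Theorem for `p` (integer form), from the descent. -/
theorem caseII_int {p : ℕ} [Fact p.Prime] (hp5 : 5 ≤ p) (K : Type*) [Field K] [NumberField K]
    [IsCyclotomicExtension {p} ℚ K] (hpid : IsPrincipalIdealRing (𝓞 K))
    (hkl : ∀ u : (𝓞 K)ˣ, ∀ n : ℤ, (p : 𝓞 K) ∣ (u : 𝓞 K) - n → ∃ v : (𝓞 K)ˣ, u = v ^ p)
    (a b c : ℤ) (hab : IsCoprime a b) (h : a ^ p + b ^ p = c ^ p) (hc : c ≠ 0)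
    (hpc : (p : ℤ) ∣ c) : False := by
  have hpp : p.Prime := Fact.out
  have hζ := IsCyclotomicExtension.zeta_spec p ℚ K
  have hprime : Prime (p : ℤ) := Nat.prime_iff_prime_int.mp hpp
  obtain ⟨k, c', hc', hck⟩ := WfDvdMonoid.max_power_factor hc hprime.irreducible
  have hk : 1 ≤ k := by
    by_contra hk0
    have hk0' : k = 0 := by omega
    subst hk0'
    rw [pow_zero, one_mul] at hck
    exact hc' (hck ▸ hpc)
  have hpa : ¬ (p : ℤ) ∣ a := by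
    intro hd
    have h1 : (p : ℤ) ∣ b ^ p := by
      have h2 : b ^ p = c ^ p - a ^ p := by linarith
      rw [h2]
      exact dvd_sub (dvd_pow hpc hpp.ne_zero) (dvd_pow hd hpp.ne_zero)
    exact hprime.not_isUnit (hab.isUnit_of_dvd' hd (hprime.dvd_of_dvd_pow h1))
  have hpb : ¬ (p : ℤ) ∣ b := by
    intro hd
    have h1 : (p : ℤ) ∣ a ^ p := by
      have h2 : a ^ p = c ^ p - b ^ p := by linarith
      rw [h2]
      exact dvd_sub (dvd_pow hpc hpp.ne_zero) (dvd_pow hd hpp.ne_zero)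
    exact hprime.not_isUnit (hab.isUnit_of_dvd' (hprime.dvd_of_dvd_pow h1) hd)
  obtain ⟨u, hu⟩ := IsCyclotomicExtension.Rat.associated_zeta_sub_one_pow_prime p hζ
  have hdvd : ∀ n : ℤ, (hζ.toInteger - 1) ∣ (n : 𝓞 K) ↔ (p : ℤ) ∣ n := fun n =>
    IsCyclotomicExtension.Rat.zeta_sub_one_dvd_intCast_iff' p hζ
  refine caseII_descent hp5 hζ hpid hkl ((p - 1) * k)
    (Nat.mul_pos (by omega) hk) (a : 𝓞 K) (b : 𝓞 K) (c' : 𝓞 K) (u ^ (k * p))
    (fun hd => hpa ((hdvd a).mp hd)) (fun hd => hpb ((hdvd b).mp hd))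
    (fun hd => hc' ((hdvd c').mp hd)) (hab.intCast) ?_
  have h1 : ((a : 𝓞 K)) ^ p + (b : 𝓞 K) ^ p = (c : 𝓞 K) ^ p := by exact_mod_cast congrArg (Int.cast : ℤ → 𝓞 K) h
  rw [h1, hck]
  push_cast
  rw [← hu]
  ring

end Fermat.Agent.S10
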