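-- FLT-SMALL (S10/S11): final assembly.  Fermat's Last Theorem for a prime exponent `p ≥ 5` such
-- that `ℤ[ζ_p]` is a PID and Kummer's lemma holds, and the consequence for Frey packages.
import Mathlib
import Fermat.Prelude.Def_FLTPrelim_FreyPackage
import Fermat.Agent.S10.CaseIIInt

set_option autoImplicit false

open NumberField

namespace Fermat.Agent.S10

/-- FLT for a prime exponent `p ≥ 5` (coprime integer form), assembled from: `𝓞 K` is a PID,
Kummer's lemma, and the first case. -/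
theorem flt_of_parts {p : ℕ} [Fact p.Prime] (hp5 : 5 ≤ p) (K : Type*) [Field K] [NumberField K]
    [IsCyclotomicExtension {p} ℚ K] (hpid : IsPrincipalIdealRing (𝓞 K))
    (hkl : ∀ u : (𝓞 K)ˣ, ∀ n : ℤ, (p : 𝓞 K) ∣ (u : 𝓞 K) - n → ∃ v : (𝓞 K)ˣ, u = v ^ p)
    (hI : ∀ a b c : ℤ, IsCoprime a b → a ^ p + b ^ p = c ^ p → (p : ℤ) ∣ a * b * c)
    (a b c : ℤ) (ha : a ≠ 0) (hb : b ≠ 0) (hc : c ≠ 0) (hab : IsCoprime a b) :
    a ^ p + b ^ p ≠ c ^ p := by
  intro h
  have hpp : p.Prime := Fact.out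
  have hp0 : 0 < p := hpp.pos
  have hodd : Odd p := hpp.odd_of_ne_two (by omega)
  have hprime : Prime (p : ℤ) := Nat.prime_iff_prime_int.mp hpp
  have hac : IsCoprime a c := by
    have h1 : IsCoprime (a ^ p) (b ^ p + a ^ p * 1) := (hab.pow).add_mul_left_right 1
    have h2 : b ^ p + a ^ p * 1 = c ^ p := by rw [← h]; ring
    rw [h2] at h1
    exact (IsCoprime.pow_iff hp0 hp0).mp h1
  have hbc : IsCoprime b c := by
    have h1 : IsCoprime (b ^ p) (a ^ p + b ^ p * 1) := (hab.symm.pow).add_mul_left_right 1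
    have h2 : a ^ p + b ^ p * 1 = c ^ p := by rw [← h]; ring
    rw [h2] at h1
    exact (IsCoprime.pow_iff hp0 hp0).mp h1
  rcases hprime.dvd_or_dvd (hI a b c hab h) with h1 | h1
  · rcases hprime.dvd_or_dvd h1 with h2 | h2
    · -- `p ∣ a`: use `c ^ p + (-b) ^ p = a ^ p`
      refine caseII_int hp5 K hpid hkl c (-b) a hbc.symm.neg_right ?_ ha h2
      rw [hodd.neg_pow]; linarith
    · -- `p ∣ b`: use `c ^ p + (-a) ^ p = b ^ p`
      refine caseII_int hp5 K hpid hkl c (-a) b hac.symm.neg_right ?_ hb h2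
      rw [hodd.neg_pow]; linarith
  · exact caseII_int hp5 K hpid hkl a b c hab h hc h1

/-- A Frey package cannot exist when FLT (coprime form) holds for its exponent. -/
theorem frey_false_of_flt (P : FreyPackage)
    (hflt : ∀ a b c : ℤ, a ≠ 0 → b ≠ 0 → c ≠ 0 → IsCoprime a b →
      a ^ P.p + b ^ P.p ≠ c ^ P.p) : False := by
  refine hflt P.a P.b P.c P.ha0 P.hb0 P.hc0 ?_ P.hFLT
  rw [Int.isCoprime_iff_gcd_eq_one]
  have h := P.hgcdab
  rw [← Int.coe_gcd] at h
  exact_mod_cast h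

end Fermat.Agent.S10
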