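import Mathlib

/-!
# Case I of Fermat's Last Theorem for `p = 5, 7, 11, 13` (Sophie Germain / Legendre)

Pure integer arithmetic: if `x^p + y^p + z^p = 0` with `x, y, z` pairwise coprime and
`p ∤ x*y*z`, and `q` is an auxiliary prime such that
* `u^p + v^p + w^p = 0` in `ZMod q` forces `u*v*w = 0`, and
* `p` is not a `p`-th power in `ZMod q`,
then we get a contradiction.  The auxiliary primes are `11, 29, 23, 53` for `p = 5, 7, 11, 13`.
-/

set_option autoImplicit false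

namespace Fermat.Agent.S10

open Finset

/-- The cofactor `(y^p + z^p)/(y+z)` written as a geometric sum. -/
def caseI_cof (p : ℕ) (y z : ℤ) : ℤ := ∑ i ∈ range p, y ^ i * (-z) ^ (p - 1 - i)

theorem caseI_cof_mul {p : ℕ} (hodd : Odd p) (y z : ℤ) : caseI_cof p y z * (y + z) = y ^ p + z ^ p := by
  have h := geom_sum₂_mul y (-z) p
  rw [hodd.neg_pow] at h
  simpa [caseI_cof, sub_neg_eq_add] using h

theorem caseI_dvd_cof_iff {p : ℕ} {y z d : ℤ} (hd : d ∣ y + z) :
    d ∣ caseI_cof p y z ↔ d ∣ (p : ℤ) * (-z) ^ (p - 1) := by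
  have h : d ∣ y - (-z) := by simpa using hd
  exact dvd_geom_sum₂_iff_of_dvd_sub h

theorem caseI_isCoprime_add_cof {p : ℕ} (hp : p.Prime) (hodd : Odd p) {x y z : ℤ}
    (h : x ^ p + y ^ p + z ^ p = 0) (hyz : IsCoprime y z) (hpx : ¬ (p : ℤ) ∣ x) :
    IsCoprime (y + z) (caseI_cof p y z) := by
  have hpprime : Prime (p : ℤ) := Nat.prime_iff_prime_int.mp hp
  apply isCoprime_of_prime_dvd
  · rintro ⟨h1, -⟩
    apply hpx
    have h3 : x ^ p = 0 := by
      have h4 := caseI_cof_mul hodd y z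
      rw [h1, mul_zero] at h4
      linarith
    rw [pow_eq_zero_iff hp.ne_zero] at h3
    rw [h3]; exact dvd_zero _
  · intro r hr hr1 hr2
    rw [caseI_dvd_cof_iff hr1] at hr2
    rcases hr.dvd_or_dvd hr2 with h3 | h3
    · have hass : Associated r (p : ℤ) := hr.associated_of_dvd hpprime h3
      have hpdvd : (p : ℤ) ∣ y + z := hass.dvd_iff_dvd_left.mp hr1
      have h5 : (p : ℤ) ∣ x ^ p := by
        have e : x ^ p = -(caseI_cof p y z * (y + z)) := by rw [caseI_cof_mul hodd]; linarith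
        rw [e]; exact (dvd_mul_of_dvd_right hpdvd _).neg_right
      exact hpx (hpprime.dvd_of_dvd_pow h5)
    · have hrz : r ∣ z := by
        have h6 := hr.dvd_of_dvd_pow h3
        simpa using h6
      have hry : r ∣ y := by
        have h7 := dvd_sub hr1 hrz
        simpa using h7
      exact hr.not_isUnit (hyz.isUnit_of_dvd' hry hrz)

theorem caseI_exists_pow_eq {p : ℕ} (hp : p.Prime) (hodd : Odd p) {x y z : ℤ}
    (h : x ^ p + y ^ p + z ^ p = 0) (hyz : IsCoprime y z) (hpx : ¬ (p : ℤ) ∣ x) :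
    ∃ A α : ℤ, y + z = A ^ p ∧ caseI_cof p y z = α ^ p ∧ x = -(A * α) := by
  have hcop := caseI_isCoprime_add_cof hp hodd h hyz hpx
  have hmul : (y + z) * caseI_cof p y z = (-x) ^ p := by
    rw [hodd.neg_pow, mul_comm, caseI_cof_mul hodd]; linarith
  obtain ⟨A, hA⟩ := Int.eq_pow_of_mul_eq_pow_odd_left hcop hodd hmul
  obtain ⟨α, hα⟩ := Int.eq_pow_of_mul_eq_pow_odd_right hcop hodd hmul
  refine ⟨A, α, hA, hα, ?_⟩
  have h8 : (A * α) ^ p = (-x) ^ p := by rw [mul_pow, ← hA, ← hα, hmul]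
  have h9 := hodd.pow_inj.mp h8
  linarith

/-- The heart of Sophie Germain's argument: the auxiliary prime `q` cannot divide `x`. -/
theorem caseI_sg_core {p q : ℕ} (hp : p.Prime) (hodd : Odd p) [Fact q.Prime]
    (h1 : ∀ u v w : ZMod q, u ^ p + v ^ p + w ^ p = 0 → u = 0 ∨ v = 0 ∨ w = 0)
    (h2 : ∀ u : ZMod q, u ^ p ≠ (p : ZMod q))
    {x y z : ℤ} (h : x ^ p + y ^ p + z ^ p = 0)
    (hxy : IsCoprime x y) (hyz : IsCoprime y z) (hzx : IsCoprime z x)
    (hpx : ¬ (p : ℤ) ∣ x) (hpy : ¬ (p : ℤ) ∣ y) (hpz : ¬ (p : ℤ) ∣ z)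
    (hq : (q : ℤ) ∣ x) : False := by
  have hqprime : Prime (q : ℤ) := Nat.prime_iff_prime_int.mp Fact.out
  obtain ⟨A, α, hA, hα, hxA⟩ := caseI_exists_pow_eq hp hodd h hyz hpx
  obtain ⟨B, β, hB, hβ, hyB⟩ :=
    caseI_exists_pow_eq hp hodd (x := y) (y := z) (z := x) (by linarith) hzx hpy
  obtain ⟨C, γ, hC, hγ, hzC⟩ :=
    caseI_exists_pow_eq hp hodd (x := z) (y := x) (z := y) (by linarith) hxy hpz
  have hx0 : (x : ZMod q) = 0 := (ZMod.intCast_zmod_eq_zero_iff_dvd x q).mpr hq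
  have hqz : ¬ (q : ℤ) ∣ z := fun hz => hqprime.not_isUnit (hzx.isUnit_of_dvd' hz hq)
  have hqy : ¬ (q : ℤ) ∣ y := fun hy => hqprime.not_isUnit (hxy.isUnit_of_dvd' hq hy)
  have hsum : (C : ZMod q) ^ p + (B : ZMod q) ^ p + ((-A : ℤ) : ZMod q) ^ p = 0 := by
    have h3 : C ^ p + B ^ p + (-A) ^ p = 2 * x := by
      rw [hodd.neg_pow, ← hA, ← hB, ← hC]; ring
    have h4 := congrArg (Int.cast : ℤ → ZMod q) h3
    push_cast at h4 ⊢
    rw [h4, hx0, mul_zero]
  rcases h1 _ _ _ hsum with hC0 | hB0 | hA0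
  · have h5 : (q : ℤ) ∣ C := (ZMod.intCast_zmod_eq_zero_iff_dvd C q).mp hC0
    have h6 : (q : ℤ) ∣ x + y := hC ▸ dvd_pow h5 hp.ne_zero
    exact hqy ((dvd_add_right hq).mp h6)
  · have h5 : (q : ℤ) ∣ B := (ZMod.intCast_zmod_eq_zero_iff_dvd B q).mp hB0
    have h6 : (q : ℤ) ∣ z + x := hB ▸ dvd_pow h5 hp.ne_zero
    exact hqz ((dvd_add_left hq).mp h6)
  · have hA' : (q : ℤ) ∣ A := by
      have h5 : (q : ℤ) ∣ -A := (ZMod.intCast_zmod_eq_zero_iff_dvd (-A) q).mp hA0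
      simpa using h5
    have hyz' : (q : ℤ) ∣ y + z := hA ▸ dvd_pow hA' hp.ne_zero
    have hev : Even (p - 1) := by
      obtain ⟨k, hk⟩ := hodd
      exact ⟨k, by omega⟩
    have e1 : (α : ZMod q) ^ p = (p : ZMod q) * (y : ZMod q) ^ (p - 1) := by
      have hzy : (-(z : ZMod q)) = (y : ZMod q) := by
        have h5 : ((y + z : ℤ) : ZMod q) = 0 :=
          (ZMod.intCast_zmod_eq_zero_iff_dvd _ q).mpr hyz'
        push_cast at h5
        linear_combination -h5
      have h6 := congrArg (Int.cast : ℤ → ZMod q) hα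
      rw [caseI_cof] at h6
      push_cast at h6
      rw [← h6]
      calc ∑ i ∈ range p, (y : ZMod q) ^ i * (-(z : ZMod q)) ^ (p - 1 - i)
          = ∑ i ∈ range p, (y : ZMod q) ^ (p - 1) := by
            apply Finset.sum_congr rfl
            intro i hi
            rw [hzy, ← pow_add]
            congr 1
            have := Finset.mem_range.mp hi
            omega
        _ = (p : ZMod q) * (y : ZMod q) ^ (p - 1) := by
            rw [Finset.sum_const, Finset.card_range, nsmul_eq_mul]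
    have e2 : (γ : ZMod q) ^ p = (y : ZMod q) ^ (p - 1) := by
      have h6 := congrArg (Int.cast : ℤ → ZMod q) hγ
      rw [caseI_cof] at h6
      push_cast at h6
      rw [← h6, hx0]
      rw [Finset.sum_eq_single 0]
      · rw [pow_zero, one_mul, Nat.sub_zero, hev.neg_pow]
      · intro i _ hi
        rw [zero_pow hi, zero_mul]
      · intro h0
        exact absurd (Finset.mem_range.mpr hp.pos) h0
    have hγ0 : (γ : ZMod q) ≠ 0 := by
      intro h0
      have h5 : (q : ℤ) ∣ γ := (ZMod.intCast_zmod_eq_zero_iff_dvd γ q).mp h0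
      exact hqz (hzC ▸ (dvd_mul_of_dvd_right h5 C).neg_right)
    have hy0 : (y : ZMod q) ^ (p - 1) ≠ 0 := by
      rw [← e2]; exact pow_ne_zero _ hγ0
    apply h2 ((α : ZMod q) * (γ : ZMod q)⁻¹)
    rw [mul_pow, inv_pow, e1, e2]
    field_simp

/-- Symmetric form of case I. -/
theorem caseI_sym {p q : ℕ} (hp : p.Prime) (hodd : Odd p) [Fact q.Prime]
    (h1 : ∀ u v w : ZMod q, u ^ p + v ^ p + w ^ p = 0 → u = 0 ∨ v = 0 ∨ w = 0)
    (h2 : ∀ u : ZMod q, u ^ p ≠ (p : ZMod q))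
    {x y z : ℤ} (h : x ^ p + y ^ p + z ^ p = 0)
    (hxy : IsCoprime x y) (hyz : IsCoprime y z) (hzx : IsCoprime z x)
    (hpx : ¬ (p : ℤ) ∣ x) (hpy : ¬ (p : ℤ) ∣ y) (hpz : ¬ (p : ℤ) ∣ z) : False := by
  have h3 : (x : ZMod q) ^ p + (y : ZMod q) ^ p + (z : ZMod q) ^ p = 0 := by
    have h4 := congrArg (Int.cast : ℤ → ZMod q) h
    push_cast at h4
    exact h4
  rcases h1 _ _ _ h3 with hx | hy | hz
  · exact caseI_sg_core hp hodd h1 h2 h hxy hyz hzx hpx hpy hpz
      ((ZMod.intCast_zmod_eq_zero_iff_dvd x q).mp hx)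
  · exact caseI_sg_core hp hodd h1 h2 (x := y) (y := z) (z := x) (by linarith) hyz hzx hxy hpy hpz hpx
      ((ZMod.intCast_zmod_eq_zero_iff_dvd y q).mp hy)
  · exact caseI_sg_core hp hodd h1 h2 (x := z) (y := x) (z := y) (by linarith) hzx hxy hyz hpz hpx hpy
      ((ZMod.intCast_zmod_eq_zero_iff_dvd z q).mp hz)

/-- Case I for the equation `a^p + b^p = c^p`, given a suitable auxiliary prime `q`. -/
theorem caseI_of_aux {p q : ℕ} (hp : p.Prime) (hodd : Odd p) [Fact q.Prime]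
    (h1 : ∀ u v w : ZMod q, u ^ p + v ^ p + w ^ p = 0 → u = 0 ∨ v = 0 ∨ w = 0)
    (h2 : ∀ u : ZMod q, u ^ p ≠ (p : ZMod q))
    {a b c : ℤ} (h : a ^ p + b ^ p = c ^ p) (hab : IsCoprime a b)
    (hpabc : ¬ (p : ℤ) ∣ a * b * c) : False := by
  have hbc : IsCoprime b c := by
    apply isCoprime_of_prime_dvd
    · rintro ⟨hb, hc⟩
      have h3 : a ^ p = 0 := by rw [hb, hc, zero_pow hp.ne_zero] at h; linarith
      have ha : a = 0 := by rwa [pow_eq_zero_iff hp.ne_zero] at h3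
      rw [ha, hb] at hab
      exact not_isCoprime_zero_zero hab
    · intro r hr hrb hrc
      have h3 : r ∣ a ^ p := by
        have e : a ^ p = c ^ p - b ^ p := by linarith
        rw [e]
        exact dvd_sub (dvd_pow hrc hp.ne_zero) (dvd_pow hrb hp.ne_zero)
      exact hr.not_isUnit (hab.isUnit_of_dvd' (hr.dvd_of_dvd_pow h3) hrb)
  have hca : IsCoprime c a := by
    apply isCoprime_of_prime_dvd
    · rintro ⟨hc, ha⟩
      have h3 : b ^ p = 0 := by rw [hc, ha, zero_pow hp.ne_zero] at h; linarith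
      have hb : b = 0 := by rwa [pow_eq_zero_iff hp.ne_zero] at h3
      rw [ha, hb] at hab
      exact not_isCoprime_zero_zero hab
    · intro r hr hrc hra
      have h3 : r ∣ b ^ p := by
        have e : b ^ p = c ^ p - a ^ p := by linarith
        rw [e]
        exact dvd_sub (dvd_pow hrc hp.ne_zero) (dvd_pow hra hp.ne_zero)
      exact hr.not_isUnit (hab.isUnit_of_dvd' hra (hr.dvd_of_dvd_pow h3))
  refine caseI_sym hp hodd h1 h2 (x := a) (y := b) (z := -c) ?_ hab hbc.neg_right hca.neg_left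
    ?_ ?_ ?_
  · rw [hodd.neg_pow]; linarith
  · exact fun hd => hpabc (dvd_mul_of_dvd_left (dvd_mul_of_dvd_left hd b) c)
  · exact fun hd => hpabc (dvd_mul_of_dvd_left (dvd_mul_of_dvd_right hd a) c)
  · exact fun hd => hpabc (dvd_mul_of_dvd_right ((dvd_neg).mp hd) (a * b))


/-! ### The four concrete primes -/

theorem caseI_aux_5_a : ∀ u v w : ZMod 11, u ^ 5 + v ^ 5 + w ^ 5 = 0 → u = 0 ∨ v = 0 ∨ w = 0 := by
  decide +kernel

theorem caseI_aux_5_b : ∀ u : ZMod 11, u ^ 5 ≠ ((5 : ℕ) : ZMod 11) := by decide +kernel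

theorem caseI_aux_7_a : ∀ u v w : ZMod 29, u ^ 7 + v ^ 7 + w ^ 7 = 0 → u = 0 ∨ v = 0 ∨ w = 0 := by
  decide +kernel

theorem caseI_aux_7_b : ∀ u : ZMod 29, u ^ 7 ≠ ((7 : ℕ) : ZMod 29) := by decide +kernel

theorem caseI_aux_11_a : ∀ u v w : ZMod 23, u ^ 11 + v ^ 11 + w ^ 11 = 0 → u = 0 ∨ v = 0 ∨ w = 0 := by
  decide +kernel

theorem caseI_aux_11_b : ∀ u : ZMod 23, u ^ 11 ≠ ((11 : ℕ) : ZMod 23) := by decide +kernel

theorem caseI_aux_13_pow : ∀ u : ZMod 53,
    u = 0 ∨ u ^ 13 = 1 ∨ u ^ 13 = -1 ∨ u ^ 13 = 23 ∨ u ^ 13 = -23 := by decide +kernel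

theorem caseI_aux_13_a : ∀ u v w : ZMod 53, u ^ 13 + v ^ 13 + w ^ 13 = 0 → u = 0 ∨ v = 0 ∨ w = 0 := by
  intro u v w h
  rcases caseI_aux_13_pow u with hu | hu | hu | hu | hu
  · exact Or.inl hu
  all_goals
    rcases caseI_aux_13_pow v with hv | hv | hv | hv | hv
    · exact Or.inr (Or.inl hv)
    all_goals
      rcases caseI_aux_13_pow w with hw | hw | hw | hw | hw
      · exact Or.inr (Or.inr hw)
      all_goals
        exfalso
        rw [hu, hv, hw] at h
        revert h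
        decide

theorem caseI_aux_13_b : ∀ u : ZMod 53, u ^ 13 ≠ ((13 : ℕ) : ZMod 53) := by decide +kernel

/-- **Case I of FLT for `p = 5, 7, 11, 13`**: if `a^p + b^p = c^p` with `a, b` coprime
then `p ∣ a*b*c`. -/
theorem caseI (p : ℕ) (hp : p = 5 ∨ p = 7 ∨ p = 11 ∨ p = 13) (a b c : ℤ)
    (hab : IsCoprime a b) (h : a ^ p + b ^ p = c ^ p) : (p : ℤ) ∣ a * b * c := by
  by_contra hpabc
  rcases hp with rfl | rfl | rfl | rfl
  · have : Fact (Nat.Prime 11) := ⟨by norm_num⟩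
    exact caseI_of_aux (q := 11) (by norm_num) (by decide) caseI_aux_5_a caseI_aux_5_b h hab hpabc
  · have : Fact (Nat.Prime 29) := ⟨by norm_num⟩
    exact caseI_of_aux (q := 29) (by norm_num) (by decide) caseI_aux_7_a caseI_aux_7_b h hab hpabc
  · have : Fact (Nat.Prime 23) := ⟨by norm_num⟩
    exact caseI_of_aux (q := 23) (by norm_num) (by decide) caseI_aux_11_a caseI_aux_11_b h hab hpabc
  · have : Fact (Nat.Prime 53) := ⟨by norm_num⟩
    exact caseI_of_aux (q := 53) (by norm_num) (by decide) caseI_aux_13_a caseI_aux_13_b h hab hpabc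

end Fermat.Agent.S10
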