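import Mathlib
import Fermat.Agent.S10.Kummer.Main
import Fermat.Agent.S10.Kummer.Cert

/-!
# Kummer's lemma for `p = 5, 7, 11, 13`

A unit of `ℤ[ζ_p]` which is congruent to a rational integer modulo `p` is a `p`-th power.

Proof (no class field theory): by Dirichlet's unit theorem the group `E / E ^ p` has at most
`p ^ ((p - 1) / 2)` elements.  The ring hom `ℤ[ζ] → 𝔽_p⟦X⟧ / X ^ (p - 1)`, `ζ ↦ 1 + X`, followed by
the logarithmic derivative gives a homomorphism `Λ : E → 𝔽_p ^ (p - 2)` which kills `p`-th powers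
and units congruent to integers mod `p`.  An explicit computation (checked by `decide`) shows that
the images of `ζ` and of the cyclotomic units `1 + ζ + ⋯ + ζ ^ (a - 1)`, `2 ≤ a ≤ (p - 1) / 2`, are
linearly independent, so `Λ` is injective on `E / E ^ p`.
-/

set_option autoImplicit false
open NumberField

namespace Fermat.Agent.S10

open KL in
/-- **Kummer's lemma** for the regular primes `5, 7, 11, 13`: a unit of the `p`-th cyclotomic
ring of integers congruent to a rational integer modulo `p` is a `p`-th power. -/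
theorem kummer_lemma (p : ℕ) [Fact p.Prime] (hp : p = 5 ∨ p = 7 ∨ p = 11 ∨ p = 13)
    (K : Type*) [Field K] [NumberField K] [IsCyclotomicExtension {p} ℚ K]
    (u : (𝓞 K)ˣ) (n : ℤ) (h : (p : 𝓞 K) ∣ (u : 𝓞 K) - n) :
    ∃ v : (𝓞 K)ˣ, u = v ^ p := by
  rcases hp with rfl | rfl | rfl | rfl
  · exact kummer_of_cert 5 K (by norm_num) cs_five cols_five W_five
      check1_five check2_five check3_five u n h
  · exact kummer_of_cert 7 K (by norm_num) cs_seven cols_seven W_seven
      check1_seven check2_seven check3_seven u n h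
  · exact kummer_of_cert 11 K (by norm_num) cs_eleven cols_eleven W_eleven
      check1_eleven check2_eleven check3_eleven u n h
  · exact kummer_of_cert 13 K (by norm_num) cs_thirteen cols_thirteen W_thirteen
      check1_thirteen check2_thirteen check3_thirteen u n h

/-- Kummer's lemma for `p = 5`. -/
theorem kummer_lemma_five (K : Type*) [Field K] [NumberField K] [IsCyclotomicExtension {5} ℚ K]
    (u : (𝓞 K)ˣ) (n : ℤ) (h : ((5 : ℕ) : 𝓞 K) ∣ (u : 𝓞 K) - n) : ∃ v : (𝓞 K)ˣ, u = v ^ 5 :=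
  haveI : Fact (Nat.Prime 5) := ⟨by norm_num⟩
  kummer_lemma 5 (by norm_num) K u n h

/-- Kummer's lemma for `p = 7`. -/
theorem kummer_lemma_seven (K : Type*) [Field K] [NumberField K] [IsCyclotomicExtension {7} ℚ K]
    (u : (𝓞 K)ˣ) (n : ℤ) (h : ((7 : ℕ) : 𝓞 K) ∣ (u : 𝓞 K) - n) : ∃ v : (𝓞 K)ˣ, u = v ^ 7 :=
  haveI : Fact (Nat.Prime 7) := ⟨by norm_num⟩
  kummer_lemma 7 (by norm_num) K u n h

/-- Kummer's lemma for `p = 11`. -/
theorem kummer_lemma_eleven (K : Type*) [Field K] [NumberField K]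
    [IsCyclotomicExtension {11} ℚ K]
    (u : (𝓞 K)ˣ) (n : ℤ) (h : ((11 : ℕ) : 𝓞 K) ∣ (u : 𝓞 K) - n) : ∃ v : (𝓞 K)ˣ, u = v ^ 11 :=
  haveI : Fact (Nat.Prime 11) := ⟨by norm_num⟩
  kummer_lemma 11 (by norm_num) K u n h

/-- Kummer's lemma for `p = 13`. -/
theorem kummer_lemma_thirteen (K : Type*) [Field K] [NumberField K]
    [IsCyclotomicExtension {13} ℚ K]
    (u : (𝓞 K)ˣ) (n : ℤ) (h : ((13 : ℕ) : 𝓞 K) ∣ (u : 𝓞 K) - n) : ∃ v : (𝓞 K)ˣ, u = v ^ 13 :=
  haveI : Fact (Nat.Prime 13) := ⟨by norm_num⟩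
  kummer_lemma 13 (by norm_num) K u n h

end Fermat.Agent.S10
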