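import Fermat.Agent.S10.PIDCert

/-!
`ℤ[ζ₁₃]` is a principal ideal domain (helper18, FLT-small project S10/S11).
-/

set_option linter.unusedSectionVars false

namespace Fermat.Agent.S10.PID13

open Fermat.Agent.S10.PIDCert

open NumberField Ideal Polynomial Module InfinitePlace Nat Real

section Thirteen

variable {K : Type*} [Field K] [NumberField K] [hK : IsCyclotomicExtension {13} ℚ K]

local instance fact_prime_thirteen : Fact (Nat.Prime 13) := ⟨by norm_num⟩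

theorem geom_sum_thirteen {ζ : K} (hζ : IsPrimitiveRoot ζ 13) :
    1 + hζ.toInteger + hζ.toInteger ^ 2 + hζ.toInteger ^ 3 + hζ.toInteger ^ 4
      + hζ.toInteger ^ 5 + hζ.toInteger ^ 6 + hζ.toInteger ^ 7 + hζ.toInteger ^ 8
      + hζ.toInteger ^ 9 + hζ.toInteger ^ 10 + hζ.toInteger ^ 11 + hζ.toInteger ^ 12 = 0 := by
  have := hζ.toInteger_isPrimitiveRoot.geom_sum_eq_zero (by norm_num)
  simpa [Finset.sum_range_succ] using this

theorem isPrincipal_of_liesOver_53 (P : Ideal (𝓞 K)) [P.IsPrime]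
    [P.LiesOver (span {(((53 : ℕ) : ℤ))})] : Submodule.IsPrincipal P := by
  obtain ⟨ζ', hζ', hmem⟩ := exists_primitiveRoot_sub_mem P 53 (by norm_num)
    (IsCyclotomicExtension.zeta_spec 13 ℚ K) 16 (by norm_num) (by norm_num)
  have hΦ := geom_sum_thirteen hζ'
  have hq : ((53 : ℕ) : 𝓞 K) ∈ P := by
    have := (intCast_mem_iff P 53 ((53 : ℕ) : ℤ)).mpr dvd_rfl
    simpa using this
  obtain ⟨z, hz⟩ : ∃ z, z = hζ'.toInteger := ⟨_, rfl⟩
  rw [← hz] at hmem hΦ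
  rw [Int.cast_ofNat] at hmem
  have h := eq_span_singleton_of_cert P 53 hζ' 16
    (1 - z + z ^ 3)
    (25 + 10 * z + 19 * z ^ 2 + 3 * z ^ 3 + 2 * z ^ 4 - 8 * z ^ 5 - 2 * z ^ 6 + 5 * z ^ 7 + 22 * z ^ 8 + 33 * z ^ 9 + 37 * z ^ 10 + 24 * z ^ 11)
    (-8 - 3 * z - 6 * z ^ 2 - z ^ 3 - z ^ 4 + 2 * z ^ 5 - 2 * z ^ 7 - 7 * z ^ 8 - 10 * z ^ 9 - 11 * z ^ 10 - 7 * z ^ 11)
    ?_ ?_ ?_
  · rw [h]; exact ⟨⟨_, rfl⟩⟩
  · push_cast
    linear_combination (-28 + 13 * z + 24 * z ^ 2) * hΦ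
  · rw [← hz]
    push_cast
    linear_combination (8 - 4 * z - 7 * z ^ 2) * hΦ
  · have e : (1 - z + z ^ 3 : 𝓞 K) =
        (z - 16) * (255 + 16 * z + z ^ 2) + ((53 : ℕ) : 𝓞 K) * (77) := by
      push_cast; ring
    rw [e]
    exact P.add_mem (P.mul_mem_right _ hmem) (P.mul_mem_right _ hq)


theorem isPrincipal_of_liesOver_79 (P : Ideal (𝓞 K)) [P.IsPrime]
    [P.LiesOver (span {(((79 : ℕ) : ℤ))})] : Submodule.IsPrincipal P := by
  obtain ⟨ζ', hζ', hmem⟩ := exists_primitiveRoot_sub_mem P 79 (by norm_num)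
    (IsCyclotomicExtension.zeta_spec 13 ℚ K) 62 (by norm_num) (by norm_num)
  have hΦ := geom_sum_thirteen hζ'
  have hq : ((79 : ℕ) : 𝓞 K) ∈ P := by
    have := (intCast_mem_iff P 79 ((79 : ℕ) : ℤ)).mpr dvd_rfl
    simpa using this
  obtain ⟨z, hz⟩ : ∃ z, z = hζ'.toInteger := ⟨_, rfl⟩
  rw [← hz] at hmem hΦ
  rw [Int.cast_ofNat] at hmem
  have h := eq_span_singleton_of_cert P 79 hζ' 62
    (1 - z - z ^ 4)
    (62 + 63 * z + 49 * z ^ 2 + 8 * z ^ 3 + 29 * z ^ 4 + 51 * z ^ 5 + 59 * z ^ 6 + 26 * z ^ 7 + 14 * z ^ 8 + 24 * z ^ 9 + 42 * z ^ 10 + 27 * z ^ 11)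
    (-49 - 49 * z - 38 * z ^ 2 - 6 * z ^ 3 - 23 * z ^ 4 - 40 * z ^ 5 - 46 * z ^ 6 - 20 * z ^ 7 - 11 * z ^ 8 - 19 * z ^ 9 - 33 * z ^ 10 - 21 * z ^ 11)
    ?_ ?_ ?_
  · rw [h]; exact ⟨⟨_, rfl⟩⟩
  · push_cast
    linear_combination (-17 + 18 * z - 15 * z ^ 2 - 27 * z ^ 3) * hΦ
  · rw [← hz]
    push_cast
    linear_combination (13 - 14 * z + 12 * z ^ 2 + 21 * z ^ 3) * hΦ
  · have e : (1 - z - z ^ 4 : 𝓞 K) =
        (z - 62) * (-238329 - 3844 * z - 62 * z ^ 2 - z ^ 3) + ((79 : ℕ) : 𝓞 K) * (-187043) := by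
      push_cast; ring
    rw [e]
    exact P.add_mem (P.mul_mem_right _ hmem) (P.mul_mem_right _ hq)


theorem isPrincipal_of_liesOver_131 (P : Ideal (𝓞 K)) [P.IsPrime]
    [P.LiesOver (span {(((131 : ℕ) : ℤ))})] : Submodule.IsPrincipal P := by
  obtain ⟨ζ', hζ', hmem⟩ := exists_primitiveRoot_sub_mem P 131 (by norm_num)
    (IsCyclotomicExtension.zeta_spec 13 ℚ K) 80 (by norm_num) (by norm_num)
  have hΦ := geom_sum_thirteen hζ'
  have hq : ((131 : ℕ) : 𝓞 K) ∈ P := by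
    have := (intCast_mem_iff P 131 ((131 : ℕ) : ℤ)).mpr dvd_rfl
    simpa using this
  obtain ⟨z, hz⟩ : ∃ z, z = hζ'.toInteger := ⟨_, rfl⟩
  rw [← hz] at hmem hΦ
  rw [Int.cast_ofNat] at hmem
  have h := eq_span_singleton_of_cert P 131 hζ' 80
    (1 - z - z ^ 3)
    (111 + 78 * z + 17 * z ^ 2 + 67 * z ^ 3 + 84 * z ^ 4 + 40 * z ^ 5 + 46 * z ^ 6 + 69 * z ^ 7 + 48 * z ^ 8 + 33 * z ^ 9 + 41 * z ^ 10 + 28 * z ^ 11)
    (-68 - 47 * z - 10 * z ^ 2 - 41 * z ^ 3 - 51 * z ^ 4 - 24 * z ^ 5 - 28 * z ^ 6 - 42 * z ^ 7 - 29 * z ^ 8 - 20 * z ^ 9 - 25 * z ^ 10 - 17 * z ^ 11)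
    ?_ ?_ ?_
  · rw [h]; exact ⟨⟨_, rfl⟩⟩
  · push_cast
    linear_combination (-20 - 13 * z - 28 * z ^ 2) * hΦ
  · rw [← hz]
    push_cast
    linear_combination (12 + 8 * z + 17 * z ^ 2) * hΦ
  · have e : (1 - z - z ^ 3 : 𝓞 K) =
        (z - 80) * (-6401 - 80 * z - z ^ 2) + ((131 : ℕ) : 𝓞 K) * (-3909) := by
      push_cast; ring
    rw [e]
    exact P.add_mem (P.mul_mem_right _ hmem) (P.mul_mem_right _ hq)


theorem isPrincipal_of_liesOver_157 (P : Ideal (𝓞 K)) [P.IsPrime]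
    [P.LiesOver (span {(((157 : ℕ) : ℤ))})] : Submodule.IsPrincipal P := by
  obtain ⟨ζ', hζ', hmem⟩ := exists_primitiveRoot_sub_mem P 157 (by norm_num)
    (IsCyclotomicExtension.zeta_spec 13 ℚ K) 75 (by norm_num) (by norm_num)
  have hΦ := geom_sum_thirteen hζ'
  have hq : ((157 : ℕ) : 𝓞 K) ∈ P := by
    have := (intCast_mem_iff P 157 ((157 : ℕ) : ℤ)).mpr dvd_rfl
    simpa using this
  obtain ⟨z, hz⟩ : ∃ z, z = hζ'.toInteger := ⟨_, rfl⟩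
  rw [← hz] at hmem hΦ
  rw [Int.cast_ofNat] at hmem
  have h := eq_span_singleton_of_cert P 157 hζ' 75
    (1 - z + z ^ 2 + z ^ 4)
    (89 + 86 * z + 42 * z ^ 2 + 77 * z ^ 3 + 67 * z ^ 4 + 25 * z ^ 5 + 37 * z ^ 6 + 56 * z ^ 7 + 73 * z ^ 8 + 113 * z ^ 9 + 124 * z ^ 10 + 76 * z ^ 11)
    (-43 - 41 * z - 20 * z ^ 2 - 37 * z ^ 3 - 32 * z ^ 4 - 12 * z ^ 5 - 18 * z ^ 6 - 27 * z ^ 7 - 35 * z ^ 8 - 54 * z ^ 9 - 59 * z ^ 10 - 36 * z ^ 11)
    ?_ ?_ ?_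
  · rw [h]; exact ⟨⟨_, rfl⟩⟩
  · push_cast
    linear_combination (-68 + 65 * z + 48 * z ^ 2 + 76 * z ^ 3) * hΦ
  · rw [← hz]
    push_cast
    linear_combination (32 - 31 * z - 23 * z ^ 2 - 36 * z ^ 3) * hΦ
  · have e : (1 - z + z ^ 2 + z ^ 4 : 𝓞 K) =
        (z - 75) * (421949 + 5626 * z + 75 * z ^ 2 + z ^ 3) + ((157 : ℕ) : 𝓞 K) * (201568) := by
      push_cast; ring
    rw [e]
    exact P.add_mem (P.mul_mem_right _ hmem) (P.mul_mem_right _ hq)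

theorem det_cert_three : ∀ a b c : ZMod 3,
    a * ((a + c) ^ 2 - b * (b + c)) + c * (c * (b + c) - b * (a + c))
      + b * (b ^ 2 - c * (a + c)) = 0 → a = 0 ∧ b = 0 ∧ c = 0 := by decide

theorem det_cert_three_int (a b c : ℤ)
    (h : (3 : ℤ) ∣ a * ((a + c) ^ 2 - b * (b + c)) + c * (c * (b + c) - b * (a + c))
      + b * (b ^ 2 - c * (a + c))) : (3 : ℤ) ∣ a ∧ (3 : ℤ) ∣ b ∧ (3 : ℤ) ∣ c := by
  have h' := (ZMod.intCast_zmod_eq_zero_iff_dvd _ 3).mpr h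
  push_cast at h'
  obtain ⟨ha, hb, hc⟩ := det_cert_three _ _ _ h'
  exact ⟨(ZMod.intCast_zmod_eq_zero_iff_dvd _ 3).mp ha,
    (ZMod.intCast_zmod_eq_zero_iff_dvd _ 3).mp hb, (ZMod.intCast_zmod_eq_zero_iff_dvd _ 3).mp hc⟩

theorem exists_reduce_cubic (z : 𝓞 K) (g : ℤ[X]) :
    ∃ (a b c : ℤ) (s : 𝓞 K),
      aeval z g = a + b * z + c * z ^ 2 + (z ^ 3 - z - 1) * s := by
  induction g using Polynomial.induction_on with
  | C a => exact ⟨a, 0, 0, 0, by simp⟩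
  | add p q hp hq =>
    obtain ⟨a, b, c, s, h⟩ := hp
    obtain ⟨a', b', c', s', h'⟩ := hq
    refine ⟨a + a', b + b', c + c', s + s', ?_⟩
    rw [map_add, h, h']
    push_cast
    ring
  | monomial n a h =>
    obtain ⟨a', b', c', s, h⟩ := h
    refine ⟨c', a' + c', b', c' + s * z, ?_⟩
    have : aeval z (C a * X ^ (n + 1)) = aeval z (C a * X ^ n) * z := by
      rw [pow_succ, ← mul_assoc, map_mul, aeval_X]
    rw [this, h]
    push_cast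
    ring

theorem exists_primitiveRoot_cubic_mem (P : Ideal (𝓞 K)) [hP : P.IsPrime]
    [hP3 : P.LiesOver (span {((3 : ℕ) : ℤ)})] :
    ∃ (ζ' : K) (hζ' : IsPrimitiveRoot ζ' 13),
      hζ'.toInteger ^ 3 - hζ'.toInteger - 1 ∈ P := by
  have h3 : (3 : 𝓞 K) ∈ P := by
    have := (intCast_mem_iff P 3 ((3 : ℕ) : ℤ)).mpr dvd_rfl
    simpa using this
  obtain ⟨ζ, hζ⟩ : ∃ ζ : K, IsPrimitiveRoot ζ 13 := ⟨_, IsCyclotomicExtension.zeta_spec 13 ℚ K⟩
  have hΦ := geom_sum_thirteen hζ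
  obtain ⟨z, hz⟩ : ∃ z, z = hζ.toInteger := ⟨_, rfl⟩
  rw [← hz] at hΦ
  have hprod : (-1 - z + z ^ 3) * ((-1 + z + z ^ 2 + z ^ 3) * ((-1 + z ^ 2 + z ^ 3)
      * (-1 - z - z ^ 2 + z ^ 3))) ∈ P := by
    have e : (-1 - z + z ^ 3) * ((-1 + z + z ^ 2 + z ^ 3) * ((-1 + z ^ 2 + z ^ 3)
      * (-1 - z - z ^ 2 + z ^ 3))) = 3 * (-(z ^ 2 + 3 * z ^ 3 + 2 * z ^ 4 - 2 * z ^ 5
        - 5 * z ^ 6 - 2 * z ^ 7 + 2 * z ^ 8 + 3 * z ^ 9 + z ^ 10)) := by
      linear_combination hΦ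
    rw [e]
    exact P.mul_mem_right _ h3
  rcases hP.mem_or_mem hprod with h1 | hprod
  · refine ⟨ζ, hζ, ?_⟩
    rw [← hz]
    convert h1 using 1
    ring
  rcases hP.mem_or_mem hprod with h2 | hprod
  · have hζ' : IsPrimitiveRoot (ζ ^ 7) 13 := hζ.pow_of_coprime 7 (by norm_num)
    refine ⟨ζ ^ 7, hζ', ?_⟩
    have hto : hζ'.toInteger = z ^ 7 := by rw [hz]; exact RingOfIntegers.ext rfl
    rw [hto]
    have e : (z ^ 7) ^ 3 - z ^ 7 - 1 = (-1 + z + z ^ 2 + z ^ 3)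
        * (4 - 5 * z + 2 * z ^ 2 + z ^ 3 - 2 * z ^ 4 + z ^ 5) + 3 * (1 - 3 * z + z ^ 2) := by
      linear_combination (-z ^ 8 + z ^ 9) * hΦ
    rw [e]
    exact P.add_mem (P.mul_mem_right _ h2) (P.mul_mem_right _ h3)
  rcases hP.mem_or_mem hprod with h4 | h7
  · have hζ' : IsPrimitiveRoot (ζ ^ 10) 13 := hζ.pow_of_coprime 10 (by norm_num)
    refine ⟨ζ ^ 10, hζ', ?_⟩
    have hto : hζ'.toInteger = z ^ 10 := by rw [hz]; exact RingOfIntegers.ext rfl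
    rw [hto]
    have e : (z ^ 10) ^ 3 - z ^ 10 - 1 = (-1 + z ^ 2 + z ^ 3)
        * (-2 + 3 * z - 2 * z ^ 2 + z ^ 3 - z ^ 5 + z ^ 6 - z ^ 7) + 3 * (-1 + z) := by
      linear_combination (-z ^ 4 + z ^ 5 - z ^ 17 + z ^ 18) * hΦ
    rw [e]
    exact P.add_mem (P.mul_mem_right _ h4) (P.mul_mem_right _ h3)
  · have hζ' : IsPrimitiveRoot (ζ ^ 2) 13 := hζ.pow_of_coprime 2 (by norm_num)
    refine ⟨ζ ^ 2, hζ', ?_⟩
    have hto : hζ'.toInteger = z ^ 2 := by rw [hz]; exact RingOfIntegers.ext rfl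
    rw [hto]
    have e : (z ^ 2) ^ 3 - z ^ 2 - 1 = (-1 - z - z ^ 2 + z ^ 3)
        * (4 + 2 * z + z ^ 2 + z ^ 3) + 3 * (1 + 2 * z + 2 * z ^ 2) := by
      ring
    rw [e]
    exact P.add_mem (P.mul_mem_right _ h7) (P.mul_mem_right _ h3)

theorem isPrincipal_of_liesOver_3 (P : Ideal (𝓞 K)) [hP : P.IsPrime]
    [hP3 : P.LiesOver (span {((3 : ℕ) : ℤ)})] : Submodule.IsPrincipal P := by
  obtain ⟨ζ', hζ', hmem⟩ := exists_primitiveRoot_cubic_mem P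
  have hΦ := geom_sum_thirteen hζ'
  have h3 : (3 : 𝓞 K) ∈ P := by
    have := (intCast_mem_iff P 3 ((3 : ℕ) : ℤ)).mpr dvd_rfl
    simpa using this
  have hexists := exists_aeval_toInteger_eq hζ'
  obtain ⟨z, hz⟩ : ∃ z, z = hζ'.toInteger := ⟨_, rfl⟩
  rw [← hz] at hmem hΦ hexists
  have hβ : (z ^ 3 - z - 1) * (1 + z ^ 2 + z ^ 3 + 2 * z ^ 5 + z ^ 7 + 2 * z ^ 8 - z ^ 9
      + 3 * z ^ 10) = 3 := by
    linear_combination (-4 + 3 * z) * hΦ
  have h : P = span {z ^ 3 - z - 1} := by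
    apply le_antisymm
    · intro x hx
      obtain ⟨g, rfl⟩ := hexists x
      obtain ⟨a, b, c, s, hg⟩ := exists_reduce_cubic z g
      have ht : (a : 𝓞 K) + b * z + c * z ^ 2 ∈ P := by
        have : (a : 𝓞 K) + b * z + c * z ^ 2 = aeval z g - (z ^ 3 - z - 1) * s := by
          rw [hg]; ring
        rw [this]
        exact P.sub_mem hx (P.mul_mem_right _ hmem)
      have hD : ((a * ((a + c) ^ 2 - b * (b + c)) + c * (c * (b + c) - b * (a + c))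
          + b * (b ^ 2 - c * (a + c)) : ℤ) : 𝓞 K) ∈ P := by
        have : ((a * ((a + c) ^ 2 - b * (b + c)) + c * (c * (b + c) - b * (a + c))
            + b * (b ^ 2 - c * (a + c)) : ℤ) : 𝓞 K)
            = ((a : 𝓞 K) + b * z + c * z ^ 2) * ((((a + c) ^ 2 - b * (b + c) : ℤ) : 𝓞 K)
                + ((c * (b + c) - b * (a + c) : ℤ) : 𝓞 K) * z
                + ((b ^ 2 - c * (a + c) : ℤ) : 𝓞 K) * z ^ 2)
              - (z ^ 3 - z - 1) * (((c * (b + c) - b * (a + c) : ℤ) : 𝓞 K) * c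
                + ((b ^ 2 - c * (a + c) : ℤ) : 𝓞 K) * (c * z + b)) := by
          push_cast
          ring
        rw [this]
        exact P.sub_mem (P.mul_mem_right _ ht) (P.mul_mem_right _ hmem)
      have hD' := (intCast_mem_iff P 3 _).mp hD
      obtain ⟨⟨a', rfl⟩, ⟨b', rfl⟩, ⟨c', rfl⟩⟩ := det_cert_three_int a b c (by simpa using hD')
      rw [hg, Ideal.mem_span_singleton]
      refine ⟨(1 + z ^ 2 + z ^ 3 + 2 * z ^ 5 + z ^ 7 + 2 * z ^ 8 - z ^ 9 + 3 * z ^ 10)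
        * (a' + b' * z + c' * z ^ 2) + s, ?_⟩
      push_cast
      linear_combination (-(a' + b' * z + c' * z ^ 2 : 𝓞 K)) * hβ
    · exact (span_singleton_le_iff_mem P).mpr hmem
  rw [h]; exact ⟨⟨_, rfl⟩⟩


end Thirteen

theorem order_cases_thirteen : ∀ q ∈ Finset.range 307, ∀ f ∈ Finset.Icc 1 8,
    q ^ f ≤ 306 → q ^ f % 13 = 1 →
    q ∈ ({3, 53, 79, 131, 157, 1, 12, 14, 27, 40, 66, 92, 105, 118, 144, 170, 183, 196, 209,
      222, 235, 248, 261, 274, 287, 300} : Finset ℕ) := by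
  decide +kernel

theorem lt_pow_orderOf_thirteen (q : ℕ) (hq : q.Prime) (hq306 : q ≤ 306) (h13 : q ≠ 13)
    (hS : ¬ (q = 3 ∨ q = 53 ∨ q = 79 ∨ q = 131 ∨ q = 157)) :
    306 < q ^ orderOf (q : ZMod 13) := by
  by_contra hcon
  push Not at hcon
  have hq0 : (q : ZMod 13) ≠ 0 := by
    intro h
    rw [ZMod.natCast_eq_zero_iff] at h
    exact h13 ((Nat.prime_dvd_prime_iff_eq (by norm_num) hq).mp h).symm
  have hfin : IsOfFinOrder (q : ZMod 13) := by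
    rw [isOfFinOrder_iff_pow_eq_one]
    have : Fact (Nat.Prime 13) := ⟨by norm_num⟩
    exact ⟨12, by norm_num, ZMod.pow_card_sub_one_eq_one hq0⟩
  have hfpos : 0 < orderOf (q : ZMod 13) := hfin.orderOf_pos
  have hpow : (q : ZMod 13) ^ orderOf (q : ZMod 13) = 1 := pow_orderOf_eq_one _
  have hmod : q ^ orderOf (q : ZMod 13) % 13 = 1 := by
    have h1 : ((q ^ orderOf (q : ZMod 13) : ℕ) : ZMod 13) = ((1 : ℕ) : ZMod 13) := by
      push_cast; exact hpow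
    exact (ZMod.natCast_eq_natCast_iff' _ _ _).mp h1
  have hf8 : orderOf (q : ZMod 13) ≤ 8 := by
    by_contra h
    push Not at h
    have : 2 ^ 9 ≤ q ^ orderOf (q : ZMod 13) :=
      (Nat.pow_le_pow_left hq.two_le 9).trans (Nat.pow_le_pow_right hq.pos h)
    omega
  have := order_cases_thirteen q (Finset.mem_range.mpr (by omega)) _
    (Finset.mem_Icc.mpr ⟨hfpos, hf8⟩) hcon hmod
  simp only [Finset.mem_insert, Finset.mem_singleton] at this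
  rcases this with rfl | rfl | rfl | rfl | rfl | rfl | rfl | rfl | rfl | rfl | rfl | rfl | rfl
    | rfl | rfl | rfl | rfl | rfl | rfl | rfl | rfl | rfl | rfl | rfl | rfl | rfl
  all_goals first
    | (norm_num at hq; done)
    | (norm_num at hS; done)


section Main

local instance fact_prime_thirteen_main : Fact (Nat.Prime 13) := ⟨by norm_num⟩

theorem minkowski_floor_le_thirteen (K : Type*) [Field K] [NumberField K]
    [hK : IsCyclotomicExtension {13} ℚ K] :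
    ⌊(4 / π) ^ nrComplexPlaces K *
      ((finrank ℚ K)! / (finrank ℚ K) ^ (finrank ℚ K) * √|(discr K : ℝ)|)⌋₊ ≤ 306 := by
  rw [IsCyclotomicExtension.Rat.discr_prime 13 K, IsCyclotomicExtension.finrank (n := 13) K
    (Polynomial.cyclotomic.irreducible_rat (by simp)),
    IsCyclotomicExtension.Rat.nrComplexPlaces_eq_totient_div_two 13,
    totient_prime (by norm_num : Nat.Prime 13)]
  have hs : √|(((-1 : ℤ) ^ ((13 - 1) / 2) * ((13 : ℕ) : ℤ) ^ (13 - 2) : ℤ) : ℝ)| ≤ 1338716 := by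
    rw [Real.sqrt_le_iff]
    refine ⟨by norm_num, ?_⟩
    norm_num
  have hpi : (4 / π) ≤ 4 / 3.1415 := by
    apply div_le_div_of_nonneg_left (by norm_num) (by norm_num) pi_gt_d4.le
  have hpi0 : (0 : ℝ) ≤ 4 / π := by positivity
  have h1 : (4 / π) ^ ((13 - 1) / 2) ≤ (4 / 3.1415) ^ ((13 - 1) / 2) :=
    pow_le_pow_left₀ hpi0 hpi _
  have hlt : (4 / π) ^ ((13 - 1) / 2) *
      (((13 - 1 : ℕ)! : ℝ) / ((13 - 1 : ℕ) : ℝ) ^ (13 - 1) *
        √|(((-1 : ℤ) ^ ((13 - 1) / 2) * ((13 : ℕ) : ℤ) ^ (13 - 2) : ℤ) : ℝ)|) < 307 := by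
    calc _ ≤ (4 / 3.1415) ^ ((13 - 1) / 2) *
      (((13 - 1 : ℕ)! : ℝ) / ((13 - 1 : ℕ) : ℝ) ^ (13 - 1) * 1338716) := by
          gcongr
      _ < 307 := by
          norm_num [Nat.factorial]
  exact Nat.lt_succ_iff.mp ((Nat.floor_lt' (by norm_num)).mpr hlt)


end Main

end Fermat.Agent.S10.PID13

namespace Fermat.Agent.S10

open NumberField Ideal Fermat.Agent.S10.PID13

/-- The ring of integers of `ℚ(ζ₁₃)` is a principal ideal domain. -/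
theorem pid_thirteen (K : Type*) [Field K] [NumberField K] [IsCyclotomicExtension {13} ℚ K] :
    IsPrincipalIdealRing (𝓞 K) := by
  have : IsGalois ℚ K := IsCyclotomicExtension.isGalois {13} ℚ K
  apply RingOfIntegers.isPrincipalIdealRing_of_isPrincipal_of_lt_or_isPrincipal_of_mem_primesOver_of_mem_Icc
  intro q hq hqprime
  have hM := minkowski_floor_le_thirteen K
  have hq306 : q ≤ 306 := (Finset.mem_Icc.mp hq).2.trans hM
  have : Fact q.Prime := ⟨hqprime⟩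
  have hprime : (span {(q : ℤ)}).IsPrime :=
    isPrime_of_prime (prime_span_singleton_iff.mpr (Nat.prime_iff_prime_int.mp hqprime))
  obtain ⟨⟨P, hP1, hP2⟩⟩ := (span {(q : ℤ)}).nonempty_primesOver (S := 𝓞 K)
  refine ⟨P, ⟨hP1, hP2⟩, ?_⟩
  by_cases h13 : q = 13
  · right
    subst h13
    rw [IsCyclotomicExtension.Rat.eq_span_zeta_sub_one_of_liesOver' 13 K
      (IsCyclotomicExtension.zeta_spec 13 ℚ K) P]
    exact ⟨⟨_, rfl⟩⟩
  by_cases hS : q = 3 ∨ q = 53 ∨ q = 79 ∨ q = 131 ∨ q = 157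
  · right
    rcases hS with rfl | rfl | rfl | rfl | rfl
    · exact isPrincipal_of_liesOver_3 P
    · exact isPrincipal_of_liesOver_53 P
    · exact isPrincipal_of_liesOver_79 P
    · exact isPrincipal_of_liesOver_131 P
    · exact isPrincipal_of_liesOver_157 P
  · left
    have hndvd : ¬ q ∣ 13 := by
      intro h
      exact h13 ((Nat.prime_dvd_prime_iff_eq hqprime (by norm_num)).mp h)
    rw [IsCyclotomicExtension.Rat.inertiaDeg_eq_of_not_dvd q K P (m := 13) hndvd]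
    exact lt_of_le_of_lt hM (lt_pow_orderOf_thirteen q hqprime hq306 h13 hS)

end Fermat.Agent.S10
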