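-- FLT-SMALL (S10): Fermat's Last Theorem for exponent 13 (Kummer; `ℤ[ζ₁₃]` is a PID).
import Mathlib
import Fermat.Agent.S10.Assembly
import Fermat.Agent.S10.CaseI
import Fermat.Agent.S10.PID13
import Fermat.Agent.S10.Kummer

set_option autoImplicit false

open NumberField

namespace Fermat.Agent.S10

set_option backward.isDefEq.respectTransparency false in
/-- Fermat's Last Theorem for exponent `13`, coprime integer form. -/
theorem flt_thirteen (a b c : ℤ) (ha : a ≠ 0) (hb : b ≠ 0) (hc : c ≠ 0) (hab : IsCoprime a b) :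
    a ^ 13 + b ^ 13 ≠ c ^ 13 := by
  have : Fact (Nat.Prime 13) := ⟨by norm_num⟩
  exact flt_of_parts (p := 13) (by norm_num) (CyclotomicField 13 ℚ) (pid_thirteen _)
    (fun u n h => kummer_lemma_thirteen _ u n h)
    (fun a b c hab h => caseI 13 (by norm_num) a b c hab h) a b c ha hb hc hab

end Fermat.Agent.S10
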