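import Fermat.Agent.S10.PIDCommon

set_option autoImplicit false

open NumberField Polynomial InfinitePlace Nat Real cyclotomic Ideal

namespace Fermat.Agent.S10

/-- The ring of integers of `ℚ(ζ₇)` is a principal ideal domain. -/
theorem pid_seven (K : Type*) [Field K] [NumberField K] [IsCyclotomicExtension {7} ℚ K] :
    IsPrincipalIdealRing (𝓞 K) := by
  have : Fact (Nat.Prime 7) := ⟨by norm_num⟩
  refine pid_of_minkowski_lt 7 K 4 ?_ ?_
  · rw [minkowski_prime_eq 7 K]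
    have h6 : (7 - 1 : ℕ)! = 720 := by decide
    rw [h6]
    have hs : √((7 : ℝ) ^ (7 - 2)) ≤ 130 := by
      rw [show (130 : ℝ) = √(130 ^ 2) by rw [Real.sqrt_sq (by norm_num)]]
      exact Real.sqrt_le_sqrt (by norm_num)
    have hpi : (4 / π) ^ ((7 - 1) / 2) ≤ (4 / 3 : ℝ) ^ 3 := by
      have : (4 / π) ≤ 4 / 3 := by
        apply div_le_div_of_nonneg_left (by norm_num) (by norm_num) pi_gt_three.le
      exact pow_le_pow_left₀ (by positivity) this 3
    calc (4 / π) ^ ((7 - 1) / 2) * (((720 : ℕ) : ℝ) / ((7 - 1 : ℕ) : ℝ) ^ (7 - 1) *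
          √(((7 : ℕ) : ℝ) ^ (7 - 2)))
        ≤ (4 / 3 : ℝ) ^ 3 * (((720 : ℕ) : ℝ) / ((7 - 1 : ℕ) : ℝ) ^ (7 - 1) * 130) := by
          gcongr
          exact_mod_cast hs
      _ < ((4 : ℕ) : ℝ) + 1 := by norm_num
  · intro q hq hqB hq7
    left
    apply lt_pow_orderOf_of_forall 7 4 q hq hq7
    have key : ∀ q ≤ 4, 2 ≤ q → ∀ f < 7, f ≠ 0 → q ^ f % 7 = 1 → 4 < q ^ f := by decide
    exact key q hqB hq.two_le

end Fermat.Agent.S10
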