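-- FLT-SMALL (S10): Fermat's Last Theorem for exponents 5 and 7 (Kummer; `ℤ[ζ_p]` is a PID).
import Mathlib
import Fermat.Agent.S10.Assembly
import Fermat.Agent.S10.CaseI
import Fermat.Agent.S10.PID7
import Fermat.Agent.S10.Kummer

set_option autoImplicit false

open NumberField

namespace Fermat.Agent.S10

set_option backward.isDefEq.respectTransparency false in
/-- Fermat's Last Theorem for exponent `5`, coprime integer form. -/
theorem flt_five (a b c : ℤ) (ha : a ≠ 0) (hb : b ≠ 0) (hc : c ≠ 0) (hab : IsCoprime a b) :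
    a ^ 5 + b ^ 5 ≠ c ^ 5 := by
  have : Fact (Nat.Prime 5) := ⟨by norm_num⟩
  exact flt_of_parts (p := 5) (by norm_num) (CyclotomicField 5 ℚ)
    (IsCyclotomicExtension.Rat.five_pid _)
    (fun u n h => kummer_lemma_five _ u n h)
    (fun a b c hab h => caseI 5 (by norm_num) a b c hab h) a b c ha hb hc hab

set_option backward.isDefEq.respectTransparency false in
/-- Fermat's Last Theorem for exponent `7`, coprime integer form. -/
theorem flt_seven (a b c : ℤ) (ha : a ≠ 0) (hb : b ≠ 0) (hc : c ≠ 0) (hab : IsCoprime a b) :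
    a ^ 7 + b ^ 7 ≠ c ^ 7 := by
  have : Fact (Nat.Prime 7) := ⟨by norm_num⟩
  exact flt_of_parts (p := 7) (by norm_num) (CyclotomicField 7 ℚ) (pid_seven _)
    (fun u n h => kummer_lemma_seven _ u n h)
    (fun a b c hab h => caseI 7 (by norm_num) a b c hab h) a b c ha hb hc hab

end Fermat.Agent.S10
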