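import Mathlib

/-!
# Two auxiliary lemmas for the case II descent (FLT for small regular primes)
-/

set_option autoImplicit false

open NumberField

namespace Fermat.Agent.S10

/-- In a PID: members of a pairwise coprime family whose product is a unit times an `n`-th power
are themselves units times `n`-th powers. -/
theorem exists_unit_mul_pow_of_prod_eq {R : Type*} [CommRing R] [IsDomain R]
    [IsPrincipalIdealRing R] {ι : Type*} (s : Finset ι) (f : ι → R) (n : ℕ) (ε : Rˣ) (c : R)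
    (hcop : ∀ i ∈ s, ∀ j ∈ s, i ≠ j → IsCoprime (f i) (f j))
    (hprod : ∏ i ∈ s, f i = ε * c ^ n) :
    ∀ i ∈ s, ∃ (u : Rˣ) (d : R), f i = u * d ^ n := by
  classical
  intro i hi
  have hsplit : f i * ∏ j ∈ s.erase i, f j = ε * c ^ n := by
    rw [Finset.mul_prod_erase s f hi, hprod]
  have hcop' : IsCoprime (f i) (∏ j ∈ s.erase i, f j) := by
    apply IsCoprime.prod_right
    intro j hj
    exact hcop i hi j (Finset.mem_of_mem_erase hj) (Finset.ne_of_mem_erase hj).symm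
  have hass : Associated (c ^ n) (f i * ∏ j ∈ s.erase i, f j) := by
    rw [hsplit]
    exact ⟨ε, by rw [mul_comm]⟩
  obtain ⟨d, hd⟩ := exists_associated_pow_of_associated_pow_mul hcop' hass
  obtain ⟨u, hu⟩ := hd
  exact ⟨u, d, by rw [← hu, mul_comm]⟩

/-- Every element of `𝓞 K`, `K = ℚ(ζ_p)`, has its `p`-th power congruent to a rational integer
modulo `p`. (Local copy, to keep this file self-contained.) -/
theorem descentAux_exists_int_sub_pow_dvd {p : ℕ} [Fact p.Prime] {K : Type*} [Field K]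
    [NumberField K] [IsCyclotomicExtension {p} ℚ K] {ζ : K} (hζ : IsPrimitiveRoot ζ p)
    (x : 𝓞 K) : ∃ n : ℤ, (p : 𝓞 K) ∣ x ^ p - n := by
  have hp : p.Prime := Fact.out
  have htop : Algebra.adjoin ℤ {hζ.toInteger} = ⊤ := by
    have h := hζ.integralPowerBasis.adjoin_gen_eq_top
    rwa [hζ.integralPowerBasis_gen] at h
  have hx : x ∈ Algebra.adjoin ℤ {hζ.toInteger} := by rw [htop]; exact Algebra.mem_top
  induction hx using Algebra.adjoin_induction with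
  | mem y hy =>
    rw [Set.mem_singleton_iff] at hy
    refine ⟨1, ?_⟩
    rw [hy, hζ.toInteger_isPrimitiveRoot.pow_eq_one]
    simp
  | algebraMap r =>
    refine ⟨r ^ p, ?_⟩
    simp
  | add y z _ _ hy hz =>
    obtain ⟨a, ha⟩ := hy
    obtain ⟨b, hb⟩ := hz
    obtain ⟨r, hr⟩ := exists_add_pow_prime_eq hp y z
    refine ⟨a + b, ?_⟩
    have e : (y + z) ^ p - ((a + b : ℤ) : 𝓞 K) =
        (y ^ p - a) + (z ^ p - b) + (p : 𝓞 K) * (y * z * r) := by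
      rw [hr]; push_cast; ring
    rw [e]
    exact dvd_add (dvd_add ha hb) (dvd_mul_right _ _)
  | mul y z _ _ hy hz =>
    obtain ⟨a, ha⟩ := hy
    obtain ⟨b, hb⟩ := hz
    refine ⟨a * b, ?_⟩
    have e : (y * z) ^ p - ((a * b : ℤ) : 𝓞 K) =
        (y ^ p - a) * z ^ p + (a : 𝓞 K) * (z ^ p - b) := by
      push_cast; ring
    rw [e]
    exact dvd_add (dvd_mul_of_dvd_left ha _) (dvd_mul_of_dvd_right hb _)

/-- If `ρ₁ ^ p + θ * ρ₂ ^ p ≡ 0 mod p` with `θ` a unit and `ρ₂` prime to `π = ζ - 1`, then `θ` is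
congruent to a rational integer mod `p`. -/
theorem unit_congr_int_of_pow_add_mul_pow {p : ℕ} [Fact p.Prime] {K : Type*} [Field K]
    [NumberField K] [IsCyclotomicExtension {p} ℚ K] {ζ : K} (hζ : IsPrimitiveRoot ζ p)
    (θ : (𝓞 K)ˣ) (ρ₁ ρ₂ : 𝓞 K) (h2 : ¬ (hζ.toInteger - 1) ∣ ρ₂)
    (h : (p : 𝓞 K) ∣ ρ₁ ^ p + θ * ρ₂ ^ p) : ∃ n : ℤ, (p : 𝓞 K) ∣ (θ : 𝓞 K) - n := by
  have hp : p.Prime := Fact.out
  have hπ : Prime (hζ.toInteger - 1) := hζ.zeta_sub_one_prime'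
  obtain ⟨n₁, hn₁⟩ := descentAux_exists_int_sub_pow_dvd hζ ρ₁
  obtain ⟨n₂, hn₂⟩ := descentAux_exists_int_sub_pow_dvd hζ ρ₂
  -- `π ∣ p`
  have hπp : (hζ.toInteger - 1) ∣ (p : 𝓞 K) := by
    have h3 := (IsCyclotomicExtension.Rat.zeta_sub_one_dvd_intCast_iff' p hζ (n := (p : ℤ))).mpr
      dvd_rfl
    exact_mod_cast h3
  -- `p ∤ n₂`
  have hpn₂ : ¬ (p : ℤ) ∣ n₂ := by
    intro hdvd
    have h3 : (hζ.toInteger - 1) ∣ (n₂ : 𝓞 K) :=
      (IsCyclotomicExtension.Rat.zeta_sub_one_dvd_intCast_iff' p hζ).mpr hdvd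
    have h4 : (hζ.toInteger - 1) ∣ ρ₂ ^ p := by
      have h5 : (hζ.toInteger - 1) ∣ ρ₂ ^ p - n₂ := hπp.trans hn₂
      have h6 := dvd_add h5 h3
      rwa [sub_add_cancel] at h6
    exact h2 (hπ.dvd_of_dvd_pow h4)
  -- inverse of `n₂` mod `p`
  have hcop : IsCoprime (n₂ : ℤ) (p : ℤ) := by
    rw [isCoprime_comm]
    exact (Nat.prime_iff_prime_int.mp hp).coprime_iff_not_dvd.mpr hpn₂
  obtain ⟨m, k, hmk⟩ := hcop
  -- m * n₂ + k * p = 1
  refine ⟨-(n₁ * m), ?_⟩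
  have hmk' : (m : 𝓞 K) * n₂ + k * p = 1 := by exact_mod_cast congrArg (Int.cast : ℤ → 𝓞 K) hmk
  have e : (θ : 𝓞 K) - ((-(n₁ * m) : ℤ) : 𝓞 K) =
      (ρ₁ ^ p + θ * ρ₂ ^ p) * m - (ρ₁ ^ p - n₁) * m - θ * (ρ₂ ^ p - n₂) * m
        + (p : 𝓞 K) * (θ * k) := by
    push_cast
    linear_combination (-(θ : 𝓞 K)) * hmk'
  rw [e]
  exact dvd_add (dvd_sub (dvd_sub (dvd_mul_of_dvd_left h _) (dvd_mul_of_dvd_left hn₁ _))
    (dvd_mul_of_dvd_left (dvd_mul_of_dvd_right hn₂ _) _)) (dvd_mul_right _ _)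

end Fermat.Agent.S10
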