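import Fermat.Agent.S10.PIDCommon

set_option autoImplicit false

open NumberField Polynomial InfinitePlace Nat Real cyclotomic Ideal

namespace Fermat.Agent.S10

theorem cyclotomic_eleven_eval_four_zmod :
    ∑ i ∈ Finset.range 11, (((4 : ℤ) : ZMod 23)) ^ i = 0 := by decide

/-- There is a principal prime ideal above `23` in the ring of integers of `ℚ(ζ₁₁)`,
generated by `1 + ζ + ζ ^ 3`. -/
theorem exists_principal_prime_over_23 (K : Type*) [Field K] [NumberField K]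
    [IsCyclotomicExtension {11} ℚ K] :
    ∃ P ∈ primesOver (span {((23 : ℕ) : ℤ)}) (𝓞 K), Submodule.IsPrincipal P := by
  have : Fact (Nat.Prime 11) := ⟨by norm_num⟩
  have : Fact (Nat.Prime 23) := ⟨by norm_num⟩
  have hζ := IsCyclotomicExtension.zeta_spec 11 ℚ K
  have h := hζ.toInteger_isPrimitiveRoot.geom_sum_eq_zero (by norm_num)
  simp only [Finset.sum_range_succ, Finset.range_zero, Finset.sum_empty, zero_add, pow_zero,
    pow_one] at h
  set ζ := hζ.toInteger with hζdef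
  refine exists_principal_prime_over 11 hζ 23 4 cyclotomic_eleven_eval_four_zmod
    (1 + ζ + ζ ^ 3)
    (-2 - 14 * ζ - 17 * ζ ^ 2 - 12 * ζ ^ 3 - 5 * ζ ^ 4 - 9 * ζ ^ 5 - 10 * ζ ^ 6 - 16 * ζ ^ 7
      - 6 * ζ ^ 8 - 15 * ζ ^ 9)
    (1 + 3 * ζ + 3 * ζ ^ 2 + 2 * ζ ^ 3 + ζ ^ 4 + 2 * ζ ^ 5 + 2 * ζ ^ 6 + 3 * ζ ^ 7 + ζ ^ 8
      + 3 * ζ ^ 9)
    3 (ζ ^ 2 + 4 * ζ + 17) ?_ ?_ ?_
  · push_cast
    linear_combination (-25 + 9 * ζ - 15 * ζ ^ 2) * h
  · push_cast
    linear_combination (5 - 2 * ζ + 3 * ζ ^ 2) * h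
  · push_cast
    ring

/-- The ring of integers of `ℚ(ζ₁₁)` is a principal ideal domain. -/
theorem pid_eleven (K : Type*) [Field K] [NumberField K] [IsCyclotomicExtension {11} ℚ K] :
    IsPrincipalIdealRing (𝓞 K) := by
  have : Fact (Nat.Prime 11) := ⟨by norm_num⟩
  refine pid_of_minkowski_lt 11 K 66 ?_ ?_
  · rw [minkowski_prime_eq 11 K]
    have h10 : (11 - 1 : ℕ)! = 3628800 := by decide
    rw [h10]
    have hs : √((11 : ℝ) ^ (11 - 2)) ≤ 48559 := by
      rw [show (48559 : ℝ) = √(48559 ^ 2) by rw [Real.sqrt_sq (by norm_num)]]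
      exact Real.sqrt_le_sqrt (by norm_num)
    have hpi : (4 / π) ^ ((11 - 1) / 2) ≤ (4 / 3.14 : ℝ) ^ 5 := by
      have : (4 / π) ≤ 4 / 3.14 := by
        apply div_le_div_of_nonneg_left (by norm_num) (by norm_num) pi_gt_d2.le
      exact pow_le_pow_left₀ (by positivity) this 5
    calc (4 / π) ^ ((11 - 1) / 2) * (((3628800 : ℕ) : ℝ) / ((11 - 1 : ℕ) : ℝ) ^ (11 - 1) *
          √(((11 : ℕ) : ℝ) ^ (11 - 2)))
        ≤ (4 / 3.14 : ℝ) ^ 5 * (((3628800 : ℕ) : ℝ) / ((11 - 1 : ℕ) : ℝ) ^ (11 - 1) * 48559) := by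
          gcongr
          exact_mod_cast hs
      _ < ((66 : ℕ) : ℝ) + 1 := by norm_num
  · intro q hq hqB hq11
    by_cases hq23 : q = 23
    · right
      subst hq23
      exact exists_principal_prime_over_23 K
    · left
      apply lt_pow_orderOf_of_forall 11 66 q hq hq11
      have key : ∀ q ∈ Finset.range 67, ∀ f ∈ Finset.range 11, Nat.Prime q → q ≠ 23 →
          f ≠ 0 → q ^ f % 11 = 1 → 66 < q ^ f := by
        set_option maxRecDepth 100000 in decide
      intro f hf hf0 hmod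
      exact key q (Finset.mem_range.mpr (by omega)) f (Finset.mem_range.mpr hf) hq hq23 hf0 hmod

end Fermat.Agent.S10
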