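-- FLT-SMALL (S10/S11), Kummer lemma, PART 1: abstract criterion.
-- Dirichlet unit theorem + linear algebra over `ZMod p`: if a homomorphism `L` from the units of
-- a number field to a `ZMod p`-vector space takes `rank K + 1` units to linearly independent
-- vectors, then every unit in the kernel of `L` is a `p`-th power.
import Mathlib

set_option autoImplicit false

namespace Fermat.Agent.S10

open NumberField NumberField.Units Module

section general

variable (p : ℕ) [Fact p.Prime] (K : Type*) [Field K] [NumberField K]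
variable {V : Type*} [AddCommGroup V] [Module (ZMod p) V]

/-- Integer-coefficient formulation of linear independence over `ZMod p`. -/
theorem linearIndependent_zmod_of_int {n : ℕ} (v : Fin n → V)
    (h : ∀ c : Fin n → ℤ, ∑ j, c j • v j = 0 → ∀ j, (p : ℤ) ∣ c j) :
    LinearIndependent (ZMod p) v := by
  rw [Fintype.linearIndependent_iff]
  intro g hg j
  have hg' : ∑ j, ((g j).cast : ℤ) • v j = (0 : V) := by
    rw [← hg]
    refine Finset.sum_congr rfl fun i _ => ?_
    rw [← Int.cast_smul_eq_zsmul (ZMod p), ZMod.intCast_cast, ZMod.cast_id', id]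
  have := h (fun j => ((g j).cast : ℤ)) hg' j
  rw [← ZMod.intCast_zmod_eq_zero_iff_dvd] at this
  simpa using this

variable {p}

/-- A map `L` from the units to an additive group that turns products into sums, bundled. -/
noncomputable def dlogHom (L : (𝓞 K)ˣ → V) (hmul : ∀ u v, L (u * v) = L u + L v) :
    (𝓞 K)ˣ →* Multiplicative V :=
  MonoidHom.mk' (fun u => Multiplicative.ofAdd (L u)) fun u v => by
    rw [hmul, ofAdd_add]

variable {K}

omit [NumberField K] in
theorem map_zpow_of_hmul (L : (𝓞 K)ˣ → V) (hmul : ∀ u v, L (u * v) = L u + L v)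
    (u : (𝓞 K)ˣ) (k : ℤ) : L (u ^ k) = k • L u := by
  have := map_zpow (dlogHom K L hmul) u k
  simpa [dlogHom] using congrArg Multiplicative.toAdd this

omit [NumberField K] in
theorem map_prod_of_hmul (L : (𝓞 K)ˣ → V) (hmul : ∀ u v, L (u * v) = L u + L v)
    {ι : Type*} (s : Finset ι) (f : ι → (𝓞 K)ˣ) : L (∏ i ∈ s, f i) = ∑ i ∈ s, L (f i) := by
  classical
  have h1 : L 1 = 0 := by
    have := hmul 1 1
    rw [mul_one] at this
    exact left_eq_add.1 this
  induction s using Finset.induction_on with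
  | empty => simpa using h1
  | insert a s ha ih => rw [Finset.prod_insert ha, Finset.sum_insert ha, hmul, ih]

/-- **Abstract Kummer criterion** (any number field). If `L` turns products of units into sums in
a `ZMod p`-vector space and maps some `n ≥ rank K + 1` units to linearly independent vectors,
then every unit killed by `L` is a `p`-th power. -/
theorem exists_eq_pow_of_map_eq_zero
    (L : (𝓞 K)ˣ → V) (hmul : ∀ u v, L (u * v) = L u + L v)
    {n : ℕ} (hn : n = NumberField.Units.rank K + 1)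
    (ε : Fin n → (𝓞 K)ˣ) (hε : LinearIndependent (ZMod p) (fun j => L (ε j)))
    (u : (𝓞 K)ˣ) (hu : L u = 0) : ∃ v : (𝓞 K)ˣ, u = v ^ p := by
  classical
  -- a generator of the torsion subgroup
  obtain ⟨τ, hτ⟩ := IsCyclic.exists_generator (α := torsion K)
  -- the generating family: `none ↦ τ`, `some i ↦ fundSystem K i`
  let gen : Option (Fin (rank K)) → (𝓞 K)ˣ := fun o => o.elim (τ : (𝓞 K)ˣ) (fundSystem K)
  -- every unit is a product of integer powers of the generating family
  have hdecomp : ∀ x : (𝓞 K)ˣ, ∃ c : Option (Fin (rank K)) → ℤ, x = ∏ o, gen o ^ c o := by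
    intro x
    obtain ⟨⟨ζ, e⟩, hx, -⟩ := exist_unique_eq_mul_prod K x
    obtain ⟨k, hk⟩ := Subgroup.mem_zpowers_iff.1 (hτ ζ)
    refine ⟨fun o => o.elim k e, ?_⟩
    rw [Fintype.prod_option]
    simp only [gen, Option.elim_none, Option.elim_some]
    rw [hx]
    congr 1
    have := congrArg (Subtype.val) hk
    simpa using this.symm
  -- the induced linear map
  let φ : (Option (Fin (rank K)) → ZMod p) →ₗ[ZMod p] V :=
    Fintype.linearCombination (ZMod p) (fun o => L (gen o))
  have hLφ : ∀ (c : Option (Fin (rank K)) → ℤ),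
      L (∏ o, gen o ^ c o) = φ (fun o => (c o : ZMod p)) := by
    intro c
    rw [map_prod_of_hmul L hmul]
    simp only [φ, Fintype.linearCombination_apply]
    refine Finset.sum_congr rfl fun o _ => ?_
    rw [map_zpow_of_hmul L hmul, Int.cast_smul_eq_zsmul]
  -- the vectors `L (ε j)` lie in the range of `φ`
  have hmem : ∀ j, L (ε j) ∈ LinearMap.range φ := by
    intro j
    obtain ⟨c, hc⟩ := hdecomp (ε j)
    rw [hc, hLφ]
    exact LinearMap.mem_range_self _ _
  -- hence `φ` is injective by a dimension count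
  have hinj : Function.Injective φ := by
    let w : Fin n → LinearMap.range φ := fun j => ⟨L (ε j), hmem j⟩
    have hw : LinearIndependent (ZMod p) w := by
      apply LinearIndependent.of_comp (LinearMap.range φ).subtype
      exact hε
    have h1 : n ≤ finrank (ZMod p) (LinearMap.range φ) := by
      simpa using hw.fintype_card_le_finrank
    have h2 := LinearMap.finrank_range_add_finrank_ker φ
    have h3 : finrank (ZMod p) (Option (Fin (rank K)) → ZMod p) = rank K + 1 := by
      simp
    have h4 : finrank (ZMod p) (LinearMap.ker φ) = 0 := by omega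
    rw [← LinearMap.ker_eq_bot]
    exact Submodule.finrank_eq_zero.1 h4
  -- conclude
  obtain ⟨c, hc⟩ := hdecomp u
  have h0 : φ (fun o => (c o : ZMod p)) = 0 := by rw [← hLφ, ← hc, hu]
  have h0' : (fun o => (c o : ZMod p)) = 0 := hinj (by rw [h0, map_zero])
  have hdvd : ∀ o, (p : ℤ) ∣ c o := fun o =>
    (ZMod.intCast_zmod_eq_zero_iff_dvd (c o) p).1 (congrFun h0' o)
  choose d hd using hdvd
  refine ⟨∏ o, gen o ^ d o, ?_⟩
  rw [hc, ← Finset.prod_pow]
  refine Finset.prod_congr rfl fun o _ => ?_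
  rw [hd o, mul_comm, zpow_mul, zpow_natCast]

end general

section cyclotomic

variable (p : ℕ) [Fact p.Prime] (K : Type*) [Field K] [NumberField K]
  [IsCyclotomicExtension {p} ℚ K]

/-- The unit rank of the `p`-th cyclotomic field is `(p - 3) / 2`, stated without subtraction. -/
theorem rank_add_one_cyclotomic (hp2 : p ≠ 2) : NumberField.Units.rank K + 1 = (p - 1) / 2 := by
  have hp := (Fact.out : p.Prime)
  have h2 : 2 < p := lt_of_le_of_ne hp.two_le (Ne.symm hp2)
  have hreal := IsCyclotomicExtension.Rat.nrRealPlaces_eq_zero (n := p) K h2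
  have hcomplex := IsCyclotomicExtension.Rat.nrComplexPlaces_eq_totient_div_two p K
  have hcard := NumberField.InfinitePlace.card_eq_nrRealPlaces_add_nrComplexPlaces (K := K)
  rw [Nat.totient_prime hp] at hcomplex
  have h3 : 1 ≤ (p - 1) / 2 := by omega
  rw [NumberField.Units.rank, hcard, hreal, hcomplex]
  omega

variable {p K}

/-- **Kummer criterion for the `p`-th cyclotomic field.** Let `L` turn products of units into sums
in a `ZMod p`-vector space and kill every unit congruent to a rational integer modulo `p`.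
If `L` maps some `(p - 1) / 2` units to linearly independent vectors, then every unit congruent
to a rational integer modulo `p` is a `p`-th power. -/
theorem kummer_of_dlog (hp2 : p ≠ 2)
    {V : Type*} [AddCommGroup V] [Module (ZMod p) V]
    (L : (𝓞 K)ˣ → V) (hmul : ∀ u v, L (u * v) = L u + L v)
    (hL : ∀ u : (𝓞 K)ˣ, (∃ a : ℤ, (p : 𝓞 K) ∣ (u : 𝓞 K) - a) → L u = 0)
    (ε : Fin ((p - 1) / 2) → (𝓞 K)ˣ)
    (hε : LinearIndependent (ZMod p) (fun j => L (ε j)))
    (u : (𝓞 K)ˣ) (hu : ∃ a : ℤ, (p : 𝓞 K) ∣ (u : 𝓞 K) - a) : ∃ v : (𝓞 K)ˣ, u = v ^ p :=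
  exists_eq_pow_of_map_eq_zero L hmul (rank_add_one_cyclotomic p K hp2).symm ε hε u (hL u hu)

/-- Variant of `kummer_of_dlog` with values in an additive group killed by `p` and linear
independence stated with integer coefficients. -/
theorem kummer_of_dlog_int (hp2 : p ≠ 2)
    {V : Type*} [AddCommGroup V] (hV : ∀ x : V, p • x = 0)
    (L : (𝓞 K)ˣ → V) (hmul : ∀ u v, L (u * v) = L u + L v)
    (hL : ∀ u : (𝓞 K)ˣ, (∃ a : ℤ, (p : 𝓞 K) ∣ (u : 𝓞 K) - a) → L u = 0)
    (ε : Fin ((p - 1) / 2) → (𝓞 K)ˣ)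
    (hε : ∀ c : Fin ((p - 1) / 2) → ℤ, ∑ j, c j • L (ε j) = 0 → ∀ j, (p : ℤ) ∣ c j)
    (u : (𝓞 K)ˣ) (hu : ∃ a : ℤ, (p : 𝓞 K) ∣ (u : 𝓞 K) - a) : ∃ v : (𝓞 K)ˣ, u = v ^ p := by
  let _ : Module (ZMod p) V := AddCommGroup.zmodModule hV
  exact kummer_of_dlog hp2 L hmul hL ε (linearIndependent_zmod_of_int p _ hε) u hu

/-- Variant of `kummer_of_dlog` for a bundled homomorphism. -/
theorem kummer_of_dlog_hom (hp2 : p ≠ 2)
    {V : Type*} [AddCommGroup V] [Module (ZMod p) V]
    (L : Additive (𝓞 K)ˣ →+ V)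
    (hL : ∀ u : (𝓞 K)ˣ, (∃ a : ℤ, (p : 𝓞 K) ∣ (u : 𝓞 K) - a) → L (Additive.ofMul u) = 0)
    (ε : Fin ((p - 1) / 2) → (𝓞 K)ˣ)
    (hε : LinearIndependent (ZMod p) (fun j => L (Additive.ofMul (ε j))))
    (u : (𝓞 K)ˣ) (hu : ∃ a : ℤ, (p : 𝓞 K) ∣ (u : 𝓞 K) - a) : ∃ v : (𝓞 K)ˣ, u = v ^ p :=
  kummer_of_dlog hp2 (fun u => L (Additive.ofMul u)) (fun u v => by rw [ofMul_mul, map_add])
    hL ε hε u hu

end cyclotomic

end Fermat.Agent.S10
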