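import Fermat.Agent.S10.PIDFactor

set_option autoImplicit false

open NumberField Polynomial InfinitePlace Nat Real cyclotomic Ideal

namespace Fermat.Agent.S10

theorem cubic13_monic : (X ^ 3 - X - 1 : ℤ[X]).Monic := by
  have h : (X ^ 3 - X - 1 : ℤ[X]) = X ^ 3 - (X + 1) := by ring
  rw [h]
  apply monic_X_pow_sub
  rw [show (X + 1 : ℤ[X]) = X + C 1 by simp]
  rw [degree_X_add_C]
  norm_num

theorem cubic13_map :
    (X ^ 3 - X - 1 : ℤ[X]).map (Int.castRingHom (ZMod 3)) = X ^ 3 - X - 1 := by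
  simp

theorem cubic13_natDegree : (X ^ 3 - X - 1 : (ZMod 3)[X]).natDegree = 3 := by
  have h : (X ^ 3 - X - 1 : (ZMod 3)[X]) = X ^ 3 - (X + C 1) := by
    rw [C_1]; ring
  rw [h, natDegree_sub_eq_left_of_natDegree_lt]
  · exact natDegree_X_pow 3
  · rw [natDegree_X_add_C, natDegree_X_pow]
    norm_num

theorem cubic13_irreducible :
    Irreducible ((X ^ 3 - X - 1 : ℤ[X]).map (Int.castRingHom (ZMod 3))) := by
  rw [cubic13_map]
  apply irreducible_of_degree_le_three_of_not_isRoot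
  · rw [cubic13_natDegree]; decide
  · intro x
    simp only [IsRoot, eval_sub, eval_pow, eval_X, eval_one]
    revert x
    decide

theorem cubic13_dvd_cyclotomic :
    (X ^ 3 - X - 1 : ℤ[X]).map (Int.castRingHom (ZMod 3)) ∣ cyclotomic 13 (ZMod 3) := by
  have : Fact (Nat.Prime 13) := ⟨by norm_num⟩
  rw [cubic13_map, cyclotomic_prime]
  refine ⟨-1 - X ^ 2 - X ^ 3 + X ^ 5 - X ^ 7 + X ^ 8 + X ^ 9, ?_⟩
  have h3 : (3 : (ZMod 3)[X]) = 0 := by
    have : ((3 : ℕ) : (ZMod 3)[X]) = 0 := by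
      rw [← C_eq_natCast, ZMod.natCast_self, C_0]
    exact_mod_cast this
  simp only [Finset.sum_range_succ, Finset.range_zero, Finset.sum_empty, zero_add, pow_zero,
    pow_one]
  linear_combination (X ^ 5 + X ^ 6 + X ^ 9 + X ^ 10) * h3

/-- There is a principal prime ideal above `3` in the ring of integers of `ℚ(ζ₁₃)`,
generated by `ζ ^ 3 - ζ - 1`. -/
theorem exists_principal_prime_over_three_thirteen (K : Type*) [Field K] [NumberField K]
    [IsCyclotomicExtension {13} ℚ K] :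
    ∃ P ∈ primesOver (span {((3 : ℕ) : ℤ)}) (𝓞 K), Submodule.IsPrincipal P := by
  have : Fact (Nat.Prime 13) := ⟨by norm_num⟩
  have : Fact (Nat.Prime 3) := ⟨by norm_num⟩
  have hζ := IsCyclotomicExtension.zeta_spec 13 ℚ K
  have h := hζ.toInteger_isPrimitiveRoot.geom_sum_eq_zero (by norm_num)
  simp only [Finset.sum_range_succ, Finset.range_zero, Finset.sum_empty, zero_add, pow_zero,
    pow_one] at h
  have hgζ : aeval hζ.toInteger (X ^ 3 - X - 1 : ℤ[X])
      = hζ.toInteger ^ 3 - hζ.toInteger - 1 := by simp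
  set ζ := hζ.toInteger with hζdef
  refine exists_principal_prime_over_of_factor 13 hζ 3 (X ^ 3 - X - 1) cubic13_monic
    cubic13_irreducible cubic13_dvd_cyclotomic
    (ζ ^ 3 - ζ - 1)
    (1 + ζ ^ 2 + ζ ^ 3 + 2 * ζ ^ 5 + ζ ^ 7 + 2 * ζ ^ 8 - ζ ^ 9 + 3 * ζ ^ 10)
    1 0 1 ?_ ?_ ?_
  · push_cast
    linear_combination (-4 + 3 * ζ) * h
  · rw [hgζ, mul_one]
  · rw [hgζ]; ring

end Fermat.Agent.S10
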