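import Mathlib

/-!
Generic certificate lemmas for principal primes in the ring of integers of `ℚ(ζ_p)`.
(helper18, for the FLT-small project S10/S11.)
-/

set_option linter.unusedSectionVars false

namespace Fermat.Agent.S10.PIDCert

open NumberField Ideal Polynomial

section Cert

variable {K : Type*} [Field K] [NumberField K] {p : ℕ} [hp : Fact p.Prime]
  [hK : IsCyclotomicExtension {p} ℚ K]

/-- Every element of `𝓞 K` is an integer polynomial in a primitive `p`-th root of unity. -/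
theorem exists_aeval_toInteger_eq {ζ : K} (hζ : IsPrimitiveRoot ζ p) (x : 𝓞 K) :
    ∃ g : ℤ[X], aeval hζ.toInteger g = x := by
  have h := IsCyclotomicExtension.Rat.adjoin_singleton_eq_top hζ
  have hx : x ∈ Algebra.adjoin ℤ {hζ.toInteger} := by rw [h]; trivial
  rw [Algebra.adjoin_singleton_eq_range_aeval] at hx
  exact hx

/-- For an integer polynomial `g`, `g(x) - g(r)` is a multiple of `x - r`. -/
theorem exists_aeval_eq_add (x : 𝓞 K) (r : ℤ) (g : ℤ[X]) :
    ∃ y : 𝓞 K, aeval x g = (x - r) * y + ((eval r g : ℤ) : 𝓞 K) := by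
  obtain ⟨y, hy⟩ := Polynomial.sub_dvd_eval_sub x (r : 𝓞 K) (g.map (algebraMap ℤ (𝓞 K)))
  refine ⟨y, ?_⟩
  have h1 : eval x (g.map (algebraMap ℤ (𝓞 K))) = aeval x g := by
    rw [aeval_def, eval₂_eq_eval_map]
  have h2 : eval (r : 𝓞 K) (g.map (algebraMap ℤ (𝓞 K))) = ((eval r g : ℤ) : 𝓞 K) := by
    have := Polynomial.eval_map_algebraMap (B := 𝓞 K) g (r : 𝓞 K)
    rw [this]
    have h3 : (r : 𝓞 K) = algebraMap ℤ (𝓞 K) r := by simp
    rw [h3, aeval_algebraMap_apply]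
    simp
  rw [h1, h2] at hy
  linear_combination hy

/-- Certificate lemma: a prime `P` over `q` containing `ζ - r` and `α`, where
`α ∣ q` and `α ∣ ζ - r`, is the principal ideal `(α)`. -/
theorem eq_span_singleton_of_cert (P : Ideal (𝓞 K)) (q : ℕ)
    [hPq : P.LiesOver (span {(q : ℤ)})]
    {ζ : K} (hζ : IsPrimitiveRoot ζ p) (r : ℤ) (α β γ : 𝓞 K)
    (h1 : α * β = q) (h2 : α * γ = hζ.toInteger - r) (hα : α ∈ P) : P = span {α} := by
  apply le_antisymm
  · intro x hx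
    obtain ⟨g, rfl⟩ := exists_aeval_toInteger_eq hζ x
    obtain ⟨y, hy⟩ := exists_aeval_eq_add hζ.toInteger r g
    have hmem : (hζ.toInteger - r) ∈ P := by
      rw [← h2]; exact P.mul_mem_right _ hα
    have hn : ((eval r g : ℤ) : 𝓞 K) ∈ P := by
      have : ((eval r g : ℤ) : 𝓞 K) = aeval hζ.toInteger g - (hζ.toInteger - r) * y := by
        rw [hy]; ring
      rw [this]
      exact P.sub_mem hx (P.mul_mem_right _ hmem)
    have hn' : (eval r g : ℤ) ∈ span {(q : ℤ)} := by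
      rw [hPq.over, Ideal.mem_comap]
      simpa using hn
    obtain ⟨m, hm⟩ := Ideal.mem_span_singleton.mp hn'
    rw [hy, hm, Ideal.mem_span_singleton]
    refine ⟨γ * y + β * m, ?_⟩
    push_cast
    linear_combination (-y) * h2 - (m : 𝓞 K) * h1
  · exact (span_singleton_le_iff_mem P).mpr hα

theorem intCast_mem_iff (P : Ideal (𝓞 K)) (q : ℕ) [hPq : P.LiesOver (span {(q : ℤ)})] (n : ℤ) :
    (n : 𝓞 K) ∈ P ↔ (q : ℤ) ∣ n := by
  rw [← Ideal.mem_span_singleton, hPq.over, Ideal.mem_comap]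
  simp

theorem exists_primitiveRoot_sub_mem (P : Ideal (𝓞 K)) [hP : P.IsPrime] (q : ℕ)
    [hPq : P.LiesOver (span {(q : ℤ)})] (hqp : ¬ (q : ℤ) ∣ p)
    {ζ : K} (hζ : IsPrimitiveRoot ζ p) (r : ℤ) (hr : (q : ℤ) ∣ r ^ p - 1)
    (hr1 : ¬ (q : ℤ) ∣ r - 1) :
    ∃ (ζ' : K) (hζ' : IsPrimitiveRoot ζ' p), hζ'.toInteger - r ∈ P := by
  have hp1 : 1 < p := hp.out.one_lt
  set mk := Ideal.Quotient.mk P with hmk
  -- r̄ is a primitive p-th root of unity in the quotient
  have hrp : mk (r : 𝓞 K) ^ p = 1 := by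
    have h : ((r ^ p - 1 : ℤ) : 𝓞 K) ∈ P := (intCast_mem_iff P q _).mpr hr
    have h2 : mk ((r ^ p - 1 : ℤ) : 𝓞 K) = 0 := Ideal.Quotient.eq_zero_iff_mem.mpr h
    push_cast at h2
    rw [map_sub, map_pow, map_one, sub_eq_zero] at h2
    exact h2
  have hr1' : mk (r : 𝓞 K) ≠ 1 := by
    intro h
    apply hr1
    rw [← intCast_mem_iff P q]
    have : mk ((r - 1 : ℤ) : 𝓞 K) = 0 := by
      push_cast
      rw [map_sub, map_one, h, sub_self]
    exact Ideal.Quotient.eq_zero_iff_mem.mp this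
  have hprim : IsPrimitiveRoot (mk (r : 𝓞 K)) p := by
    have := IsPrimitiveRoot.orderOf (mk (r : 𝓞 K))
    rwa [orderOf_eq_prime hrp hr1'] at this
  have hζp : mk hζ.toInteger ^ p = 1 := by
    rw [← map_pow, hζ.toInteger_isPrimitiveRoot.pow_eq_one, map_one]
  obtain ⟨i, hi, hir⟩ := hprim.eq_pow_of_pow_eq_one hζp
  have hi0 : i ≠ 0 := by
    rintro rfl
    rw [pow_zero] at hir
    apply hqp
    rw [← intCast_mem_iff P q]
    have h1 : hζ.toInteger - 1 ∈ P := by
      rw [← Ideal.Quotient.eq_zero_iff_mem, map_sub, map_one, ← hir, sub_self]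
    have h2 : hζ.toInteger - 1 ∣ ((p : ℤ) : 𝓞 K) :=
      (IsCyclotomicExtension.Rat.zeta_sub_one_dvd_intCast_iff' p hζ).mpr dvd_rfl
    obtain ⟨c, hc⟩ := h2
    rw [hc]
    exact P.mul_mem_right _ h1
  have hcop : Nat.Coprime i p :=
    (Nat.coprime_of_lt_prime hi0 hi hp.out).symm
  obtain ⟨j, -, hj⟩ := Nat.exists_mul_mod_eq_one_of_coprime hcop hp1
  have hjcop : Nat.Coprime j p := by
    rw [Nat.Prime.coprime_iff_not_dvd hp.out |> fun h => Nat.coprime_comm.trans h]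
    intro hdvd
    have : i * j % p = 0 := Nat.mod_eq_zero_of_dvd (Dvd.dvd.mul_left hdvd i)
    omega
  have hζ' : IsPrimitiveRoot (ζ ^ j) p := hζ.pow_of_coprime j hjcop
  refine ⟨ζ ^ j, hζ', ?_⟩
  have hto : hζ'.toInteger = hζ.toInteger ^ j := RingOfIntegers.ext rfl
  rw [← Ideal.Quotient.eq_zero_iff_mem, map_sub, hto, map_pow, ← hir, ← pow_mul,
    pow_eq_pow_mod (i * j) hrp, hj, pow_one, sub_self]

end Cert

end Fermat.Agent.S10.PIDCert
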