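import Mathlib

set_option autoImplicit false

open NumberField Polynomial InfinitePlace Nat Real cyclotomic Ideal

namespace Fermat.Agent.S10

section PrincipalPrime

variable (ℓ : ℕ) [hℓ : Fact ℓ.Prime] {K : Type*} [Field K] [NumberField K]
  [IsCyclotomicExtension {ℓ} ℚ K] {ζ : K} (hζ : IsPrimitiveRoot ζ ℓ)

/-- Every element of `𝓞 K` is congruent to an integer modulo `ζ - r`. -/
theorem exists_int_sub_mem_span (r : ℤ) (x : 𝓞 K) :
    ∃ c : ℤ, x - (c : 𝓞 K) ∈ span {hζ.toInteger - (r : 𝓞 K)} := by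
  obtain ⟨f, rfl⟩ := hζ.integralPowerBasis.exists_eq_aeval' x
  refine ⟨f.eval r, ?_⟩
  rw [hζ.integralPowerBasis_gen, mem_span_singleton]
  have := Polynomial.sub_dvd_eval_sub hζ.toInteger (r : 𝓞 K) (f.map (algebraMap ℤ (𝓞 K)))
  simpa [Polynomial.aeval_def, Polynomial.eval₂_eq_eval_map, Polynomial.eval_intCast_map] using this

omit [IsCyclotomicExtension {ℓ} ℚ K] in
theorem minpoly_toInteger_eq_cyclotomic : minpoly ℤ hζ.toInteger = cyclotomic ℓ ℤ := by
  rw [cyclotomic_eq_minpoly hζ (NeZero.pos _), ← RingOfIntegers.minpoly_coe]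
  rfl

/-- The ring hom `𝓞 K → ZMod q` sending `ζ` to `r`, for `r` a root of `Φ_ℓ` mod `q`. -/
noncomputable def evalHom (q : ℕ) (r : ℤ) (hr : ∑ i ∈ Finset.range ℓ, (r : ZMod q) ^ i = 0) :
    𝓞 K →ₐ[ℤ] ZMod q :=
  hζ.integralPowerBasis.lift (r : ZMod q) (by
    rw [hζ.integralPowerBasis_gen, minpoly_toInteger_eq_cyclotomic ℓ hζ, cyclotomic_prime]
    simpa using hr)

theorem evalHom_toInteger (q : ℕ) (r : ℤ) (hr : ∑ i ∈ Finset.range ℓ, (r : ZMod q) ^ i = 0) :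
    evalHom ℓ hζ q r hr hζ.toInteger = r := by
  calc evalHom ℓ hζ q r hr hζ.toInteger
      = evalHom ℓ hζ q r hr hζ.integralPowerBasis.gen := by rw [hζ.integralPowerBasis_gen]
    _ = r := PowerBasis.lift_gen _ _ _

/-- Certificate for a principal prime ideal of `𝓞 K` above `q`: an element `α` with
`α ∣ q`, `α ∣ ζ - r` and `α ∈ (q, ζ - r)`, where `r` is a root of `Φ_ℓ` modulo `q`. -/
theorem exists_principal_prime_over (q : ℕ) [hq : Fact q.Prime] (r : ℤ)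
    (hr : ∑ i ∈ Finset.range ℓ, (r : ZMod q) ^ i = 0)
    (α β γ u v : 𝓞 K) (hαβ : α * β = q) (hαγ : α * γ = hζ.toInteger - r)
    (hα : α = q * u + (hζ.toInteger - r) * v) :
    ∃ P ∈ primesOver (span {(q : ℤ)}) (𝓞 K), Submodule.IsPrincipal P := by
  set ev := evalHom ℓ hζ q r hr with hev
  have hevζ : ev hζ.toInteger = r := evalHom_toInteger ℓ hζ q r hr
  have hqα : (q : 𝓞 K) ∈ span {α} := mem_span_singleton.mpr ⟨β, hαβ.symm⟩
  have hζα : hζ.toInteger - (r : 𝓞 K) ∈ span {α} := mem_span_singleton.mpr ⟨γ, hαγ.symm⟩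
  have hker : RingHom.ker (ev : 𝓞 K →+* ZMod q) = span {α} := by
    apply le_antisymm
    · intro x hx
      obtain ⟨c, hc⟩ := exists_int_sub_mem_span ℓ hζ r x
      have hc0 : (c : ZMod q) = 0 := by
        have h1 : ev (x - c) = 0 := by
          obtain ⟨w, hw⟩ := mem_span_singleton.mp hc
          rw [hw, map_mul, map_sub, hevζ, map_intCast, sub_self, zero_mul]
        have hx' : ev x = 0 := hx
        rw [map_sub, hx', map_intCast, zero_sub, neg_eq_zero] at h1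
        exact h1
      obtain ⟨d, rfl⟩ := (ZMod.intCast_zmod_eq_zero_iff_dvd c q).mp hc0
      have h2 : x - ((q * d : ℤ) : 𝓞 K) ∈ span {α} := by
        obtain ⟨w, hw⟩ := mem_span_singleton.mp hc
        rw [hw]
        exact Ideal.mul_mem_right _ _ hζα
      have h3 : (((q : ℤ) * d : ℤ) : 𝓞 K) ∈ span {α} := by
        push_cast
        exact Ideal.mul_mem_right _ _ hqα
      have := Ideal.add_mem _ h2 h3
      simpa using this
    · rw [span_singleton_le_iff_mem, RingHom.mem_ker, hα]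
      simp [hevζ]
  refine ⟨span {α}, ⟨?_, ?_⟩, ⟨α, rfl⟩⟩
  · rw [← hker]
    exact RingHom.ker_isPrime _
  · rw [liesOver_iff, under_def, ← hker]
    ext n
    simp only [mem_comap, RingHom.mem_ker, algebraMap_int_eq, eq_intCast, mem_span_singleton]
    rw [show ((ev : 𝓞 K →+* ZMod q) (n : 𝓞 K)) = (n : ZMod q) by simp]
    exact (ZMod.intCast_zmod_eq_zero_iff_dvd n q).symm

end PrincipalPrime

section Criterion

/-- PID criterion for the cyclotomic field of prime conductor `ℓ`: if the Minkowski bound is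
`< B + 1`, it suffices to treat the primes `q ≤ B`, `q ≠ ℓ`: either `B < q ^ f` with `f` the
order of `q` modulo `ℓ`, or there is a principal prime above `q`. -/
theorem pid_of_minkowski_lt (ℓ : ℕ) [hℓ : Fact ℓ.Prime] (K : Type*) [Field K] [NumberField K]
    [IsCyclotomicExtension {ℓ} ℚ K] (B : ℕ)
    (hB : (4 / π) ^ nrComplexPlaces K *
      ((Module.finrank ℚ K)! / (Module.finrank ℚ K) ^ (Module.finrank ℚ K) *
        √|(discr K : ℝ)|) < B + 1)
    (h : ∀ q : ℕ, q.Prime → q ≤ B → q ≠ ℓ → B < q ^ orderOf (q : ZMod ℓ) ∨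
        ∃ P ∈ primesOver (span {(q : ℤ)}) (𝓞 K), Submodule.IsPrincipal P) :
    IsPrincipalIdealRing (𝓞 K) := by
  have : IsGalois ℚ K := IsCyclotomicExtension.isGalois {ℓ} ℚ K
  apply RingOfIntegers.isPrincipalIdealRing_of_isPrincipal_of_lt_or_isPrincipal_of_mem_primesOver_of_mem_Icc
  intro p hp hpp
  have hfloor : ⌊(4 / π) ^ nrComplexPlaces K *
      ((Module.finrank ℚ K)! / (Module.finrank ℚ K) ^ (Module.finrank ℚ K) *
        √|(discr K : ℝ)|)⌋₊ ≤ B := by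
    apply Nat.lt_succ_iff.mp
    apply (Nat.floor_lt (by positivity)).mpr
    exact_mod_cast hB
  by_cases hpl : p = ℓ
  · subst hpl
    have hζ := IsCyclotomicExtension.zeta_spec p ℚ K
    have hζ' : IsPrimitiveRoot (IsCyclotomicExtension.zeta p ℚ K) (p ^ (0 + 1)) := by
      rw [zero_add, pow_one]; exact hζ
    have : IsCyclotomicExtension {p ^ (0 + 1)} ℚ K := by
      simpa using ‹IsCyclotomicExtension {p} ℚ K›
    have hlies : (span {hζ'.toInteger - 1}).LiesOver (span {(p : ℤ)}) :=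
      IsCyclotomicExtension.Rat.liesOver_span_zeta_sub_one p 0 hζ'
    exact ⟨span {hζ'.toInteger - 1}, ⟨IsCyclotomicExtension.Rat.isPrime_span_zeta_sub_one p 0 hζ',
      hlies⟩, Or.inr ⟨_, rfl⟩⟩
  · have : Fact p.Prime := ⟨hpp⟩
    have hpl' : ¬ p ∣ ℓ := fun hdvd =>
      hpl ((Nat.prime_dvd_prime_iff_eq hpp hℓ.out).mp hdvd)
    rcases h p hpp (le_trans (Finset.mem_Icc.mp hp).2 hfloor) hpl with h1 | ⟨P', hP', hprinc⟩
    · obtain ⟨⟨P, hP1, hP2⟩⟩ := (span {(p : ℤ)}).nonempty_primesOver (S := 𝓞 K)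
      refine ⟨P, ⟨hP1, hP2⟩, Or.inl ?_⟩
      rw [IsCyclotomicExtension.Rat.inertiaDeg_eq_of_not_dvd p K P hpl']
      exact lt_of_le_of_lt hfloor h1
    · exact ⟨P', hP', Or.inr hprinc⟩

end Criterion

section Minkowski

/-- The Minkowski bound of the cyclotomic field of prime conductor `ℓ`, made explicit. -/
theorem minkowski_prime_eq (ℓ : ℕ) [hℓ : Fact ℓ.Prime] (K : Type*) [Field K] [NumberField K]
    [IsCyclotomicExtension {ℓ} ℚ K] :
    (4 / π) ^ nrComplexPlaces K *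
      ((Module.finrank ℚ K)! / (Module.finrank ℚ K) ^ (Module.finrank ℚ K) *
        √|(discr K : ℝ)|) =
    (4 / π) ^ ((ℓ - 1) / 2) *
      ((((ℓ - 1)! : ℕ) : ℝ) / ((ℓ - 1 : ℕ) : ℝ) ^ (ℓ - 1) * √((ℓ : ℝ) ^ (ℓ - 2))) := by
  rw [IsCyclotomicExtension.Rat.discr_prime ℓ K, IsCyclotomicExtension.finrank (n := ℓ) K
    (irreducible_rat (NeZero.pos ℓ)), IsCyclotomicExtension.Rat.nrComplexPlaces_eq_totient_div_two ℓ,
    totient_prime hℓ.out]
  congr 3
  push_cast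
  rw [abs_mul, abs_pow, abs_pow, abs_neg, abs_one, one_pow, one_mul, Nat.abs_cast]

/-- A lower bound on orders: if `q ≠ ℓ` is prime and every `f < ℓ`, `f ≠ 0` with
`q ^ f ≡ 1 mod ℓ` has `B < q ^ f`, then `B < q ^ orderOf (q : ZMod ℓ)`. -/
theorem lt_pow_orderOf_of_forall (ℓ : ℕ) [hℓ : Fact ℓ.Prime] (B q : ℕ) (hq : q.Prime) (hqℓ : q ≠ ℓ)
    (hdec : ∀ f < ℓ, f ≠ 0 → q ^ f % ℓ = 1 → B < q ^ f) :
    B < q ^ orderOf (q : ZMod ℓ) := by
  have hq0 : (q : ZMod ℓ) ≠ 0 := by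
    rw [Ne, ZMod.natCast_eq_zero_iff]
    exact fun hdvd => hqℓ ((Nat.prime_dvd_prime_iff_eq hℓ.out hq).mp hdvd).symm
  have h1 : (q : ZMod ℓ) ^ (ℓ - 1) = 1 := ZMod.pow_card_sub_one_eq_one hq0
  have hdvd : orderOf (q : ZMod ℓ) ∣ ℓ - 1 := orderOf_dvd_of_pow_eq_one h1
  have hℓ1 : 0 < ℓ - 1 := Nat.sub_pos_of_lt hℓ.out.one_lt
  have hle : orderOf (q : ZMod ℓ) ≤ ℓ - 1 := Nat.le_of_dvd hℓ1 hdvd
  have hne : orderOf (q : ZMod ℓ) ≠ 0 := by
    intro h0
    rw [h0, zero_dvd_iff] at hdvd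
    omega
  apply hdec _ (by omega) hne
  have h2 : ((q ^ orderOf (q : ZMod ℓ) : ℕ) : ZMod ℓ) = ((1 : ℕ) : ZMod ℓ) := by
    push_cast
    exact pow_orderOf_eq_one _
  have h3 := (ZMod.natCast_eq_natCast_iff' _ _ _).mp h2
  rwa [Nat.mod_eq_of_lt hℓ.out.one_lt] at h3

end Minkowski

end Fermat.Agent.S10
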