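import Fermat.Agent.S10.PIDCommon

set_option autoImplicit false

open NumberField Polynomial InfinitePlace Nat Real cyclotomic Ideal

namespace Fermat.Agent.S10

section PrincipalPrimeFactor

variable (ℓ : ℕ) [hℓ : Fact ℓ.Prime] {K : Type*} [Field K] [NumberField K]
  [IsCyclotomicExtension {ℓ} ℚ K] {ζ : K} (hζ : IsPrimitiveRoot ζ ℓ)

/-- Certificate for a principal prime ideal of `𝓞 K` above `q` of arbitrary residue degree:
`g` is a monic integer polynomial whose reduction mod `q` is an irreducible factor of `Φ_ℓ`,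
and `α` satisfies `α ∣ q`, `α ∣ g(ζ)` and `α ∈ (q, g(ζ))`. -/
theorem exists_principal_prime_over_of_factor (q : ℕ) [hq : Fact q.Prime] (g : ℤ[X])
    (hg : g.Monic) (hirr : Irreducible (g.map (Int.castRingHom (ZMod q))))
    (hdvd : g.map (Int.castRingHom (ZMod q)) ∣ cyclotomic ℓ (ZMod q))
    (α β γ u v : 𝓞 K) (hαβ : α * β = q) (hαγ : α * γ = aeval hζ.toInteger g)
    (hα : α = q * u + aeval hζ.toInteger g * v) :
    ∃ P ∈ primesOver (span {(q : ℤ)}) (𝓞 K), Submodule.IsPrincipal P := by
  set gq := g.map (Int.castRingHom (ZMod q)) with hgq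
  have : Fact (Irreducible gq) := ⟨hirr⟩
  -- evaluation of integer polynomials at the root of `gq`
  have haev : ∀ f : ℤ[X], aeval (AdjoinRoot.root gq) f
      = AdjoinRoot.mk gq (f.map (Int.castRingHom (ZMod q))) := by
    intro f
    rw [← AdjoinRoot.aeval_eq, aeval_def, aeval_def, eval₂_map]
    congr 1
  have hroot : aeval (AdjoinRoot.root gq) (minpoly ℤ hζ.integralPowerBasis.gen) = 0 := by
    rw [hζ.integralPowerBasis_gen, minpoly_toInteger_eq_cyclotomic ℓ hζ, haev, map_cyclotomic,
      AdjoinRoot.mk_eq_zero]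
    exact hdvd
  set ev : 𝓞 K →ₐ[ℤ] AdjoinRoot gq := hζ.integralPowerBasis.lift (AdjoinRoot.root gq) hroot
    with hev
  have hevf : ∀ f : ℤ[X], ev (aeval hζ.toInteger f)
      = AdjoinRoot.mk gq (f.map (Int.castRingHom (ZMod q))) := by
    intro f
    rw [← haev, ← hζ.integralPowerBasis_gen]
    exact PowerBasis.lift_aeval _ _ _ f
  have hevq : ev (q : 𝓞 K) = 0 := by
    rw [map_natCast]
    have h1 : (q : AdjoinRoot gq) = AdjoinRoot.of gq (q : ZMod q) := (map_natCast _ q).symm
    rw [h1, ZMod.natCast_self, map_zero]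
  have hevg : ev (aeval hζ.toInteger g) = 0 := by
    rw [hevf, AdjoinRoot.mk_self]
  have hqα : (q : 𝓞 K) ∈ span {α} := mem_span_singleton.mpr ⟨β, hαβ.symm⟩
  have hgα : aeval hζ.toInteger g ∈ span {α} := mem_span_singleton.mpr ⟨γ, hαγ.symm⟩
  have hker : RingHom.ker (ev : 𝓞 K →+* AdjoinRoot gq) = span {α} := by
    apply le_antisymm
    · intro x hx
      obtain ⟨f, rfl⟩ := hζ.integralPowerBasis.exists_eq_aeval' x
      rw [hζ.integralPowerBasis_gen] at hx ⊢
      have hx' : ev (aeval hζ.toInteger f) = 0 := hx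
      rw [hevf, AdjoinRoot.mk_eq_zero] at hx'
      have hdiv := Polynomial.modByMonic_add_div f g
      set r := f %ₘ g with hr
      set k := f /ₘ g with hk
      have hrdeg : r.degree < g.degree := Polynomial.degree_modByMonic_lt f hg
      have hgqmonic : gq.Monic := hg.map _
      have hgqdeg : gq.degree = g.degree := by
        rw [hgq, Polynomial.degree_map_eq_of_leadingCoeff_ne_zero]
        rw [hg.leadingCoeff]; simp
      have hrq : gq ∣ r.map (Int.castRingHom (ZMod q)) := by
        have h1 : f.map (Int.castRingHom (ZMod q))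
            = r.map (Int.castRingHom (ZMod q)) + gq * k.map (Int.castRingHom (ZMod q)) := by
          rw [← hdiv]; simp [hgq]
        rw [h1] at hx'
        exact (dvd_add_left (dvd_mul_right _ _)).mp hx'
      have hr0 : r.map (Int.castRingHom (ZMod q)) = 0 := by
        apply Polynomial.eq_zero_of_dvd_of_degree_lt hrq
        calc (r.map (Int.castRingHom (ZMod q))).degree ≤ r.degree := Polynomial.degree_map_le
          _ < g.degree := hrdeg
          _ = gq.degree := hgqdeg.symm
      have hCq : (C (q : ℤ)) ∣ r := by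
        rw [Polynomial.C_dvd_iff_dvd_coeff]
        intro n
        have := congrArg (fun p => p.coeff n) hr0
        simp only [coeff_map, eq_intCast, coeff_zero] at this
        exact (ZMod.intCast_zmod_eq_zero_iff_dvd _ q).mp this
      obtain ⟨r', hr'⟩ := hCq
      have hxe : aeval hζ.toInteger f
          = (q : 𝓞 K) * aeval hζ.toInteger r' + aeval hζ.toInteger g * aeval hζ.toInteger k := by
        rw [← hdiv, hr']
        simp
      rw [hxe]
      exact Ideal.add_mem _ (Ideal.mul_mem_right _ _ hqα) (Ideal.mul_mem_right _ _ hgα)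
    · rw [span_singleton_le_iff_mem, RingHom.mem_ker, hα]
      change ev (q * u + aeval hζ.toInteger g * v) = 0
      rw [map_add, map_mul, map_mul, hevq, hevg, zero_mul, zero_mul, add_zero]
  refine ⟨span {α}, ⟨?_, ?_⟩, ⟨α, rfl⟩⟩
  · rw [← hker]
    exact RingHom.ker_isPrime _
  · rw [liesOver_iff, under_def, ← hker]
    ext n
    simp only [mem_comap, RingHom.mem_ker, algebraMap_int_eq, eq_intCast, mem_span_singleton]
    have h1 : ((ev : 𝓞 K →+* AdjoinRoot gq) (n : 𝓞 K)) = AdjoinRoot.of gq (n : ZMod q) := by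
      simp
    rw [h1, map_eq_zero_iff _ (AdjoinRoot.of gq).injective]
    exact (ZMod.intCast_zmod_eq_zero_iff_dvd n q).symm

end PrincipalPrimeFactor

end Fermat.Agent.S10
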